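import Mathlib

/-!
# S17 / C0 : absolute values on `ℚ̄`, constant families, sup norms (definitions, sorry-free)
-/

set_option autoImplicit false

namespace Fermat.Agent.S17

/-- `ℚ̄`. -/
abbrev Kb : Type := AlgebraicClosure ℚ

/-- The places of `ℚ`: `none` = archimedean, `some p` = `p`-adic. -/
abbrev PlQ : Type := Option Nat.Primes

/-- A fixed embedding `ℚ̄ → ℂ`. -/
noncomputable def embC : Kb →+* ℂ :=
  letI : Algebra ℚ Kb := AlgebraicClosure.instAlgebra ℚ
  ((IsAlgClosed.lift : Kb →ₐ[ℚ] ℂ) : Kb →+* ℂ)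

/-- A fixed embedding `ℚ̄ → ℚ̄_p`. -/
noncomputable def embP (p : Nat.Primes) : Kb →+* @PadicAlgCl p.1 ⟨p.2⟩ :=
  haveI : Fact p.1.Prime := ⟨p.2⟩
  letI : Algebra ℚ Kb := AlgebraicClosure.instAlgebra ℚ
  ((IsAlgClosed.lift : Kb →ₐ[ℚ] PadicAlgCl p.1) : Kb →+* PadicAlgCl p.1)

/-- The fixed absolute value on `ℚ̄` above the place `v` of `ℚ`. -/
noncomputable def absv : PlQ → AbsoluteValue Kb ℝ
  | none => (NormedField.toAbsoluteValue ℂ).comp embC.injective
  | some p =>
    haveI : Fact p.1.Prime := ⟨p.2⟩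
    (NormedField.toAbsoluteValue (PadicAlgCl p.1)).comp (embP p).injective

/-- `kap v n = n` at the archimedean place and `1` otherwise: `|x_1+...+x_n|_v ≤ kap v n * max |x_i|_v`. -/
noncomputable def kap (v : PlQ) (n : ℕ) : ℝ := if v = none then max 1 (n : ℝ) else 1

/-- A constant family: `c_v ≥ 1`, `c_v = 1` for almost all `v`. -/
structure CF where
  c : PlQ → ℝ
  one_le : ∀ v, 1 ≤ c v
  fin : {v | c v ≠ 1}.Finite

namespace CF

instance : CoeFun CF (fun _ => PlQ → ℝ) := ⟨CF.c⟩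

instance : One CF := ⟨⟨fun _ => 1, fun _ => le_rfl, by simp⟩⟩

instance : Mul CF := ⟨fun a b => ⟨fun v => a.c v * b.c v,
  fun v => one_le_mul_of_one_le_of_one_le (a.one_le v) (b.one_le v),
  (a.fin.union b.fin).subset (by
    intro v hv
    by_contra h
    simp only [Set.mem_union, Set.mem_ofPred_eq, not_or, not_not] at h
    exact hv (by rw [h.1, h.2, one_mul]))⟩⟩

@[simp] theorem one_apply (v : PlQ) : (1 : CF) v = 1 := rfl
@[simp] theorem mul_apply (a b : CF) (v : PlQ) : (a * b) v = a v * b v := rfl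

theorem pos (a : CF) (v : PlQ) : 0 < a v := lt_of_lt_of_le one_pos (a.one_le v)

/-- the total constant `∑_v log c_v` -/
noncomputable def tot (a : CF) : ℝ := ∑ᶠ v, Real.log (a v)

/-- the constant family `kap · n` -/
noncomputable def ofNat (n : ℕ) : CF := ⟨fun v => kap v n, fun v => by
    unfold kap; split_ifs
    · exact le_max_left _ _
    · exact le_rfl,
  (Set.finite_singleton (none : PlQ)).subset (by
    intro v hv
    by_contra h
    exact hv (by simp only [kap]; rw [if_neg (by simpa using h)]))⟩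

end CF

/-- sup norm of a finite family. -/
noncomputable def supn {ι : Type*} [Fintype ι] (v : PlQ) (t : ι → Kb) : ℝ :=
  ((Finset.univ.sup fun i => (⟨absv v (t i), (absv v).nonneg _⟩ : NNReal) : NNReal) : ℝ)

/-- polynomial functions on `K^σ` -/
def IsPoly {σ : Type*} (f : (σ → Kb) → Kb) : Prop :=
  ∃ p : MvPolynomial σ Kb, ∀ x, f x = MvPolynomial.eval x p

/-- Zariski closed subsets of `K^σ` -/
def IsZClosed {σ : Type*} (Z : Set (σ → Kb)) : Prop :=
  ∃ S : Set ((σ → Kb) → Kb), (∀ f ∈ S, IsPoly f) ∧ Z = {x | ∀ f ∈ S, f x = 0}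

end Fermat.Agent.S17
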