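import Fermat.Agent.S17.C.AbsDefs

/-! # S17 / C0 : properties of the absolute values `absv v` on `ℚ̄`, of `supn`, of `CF` -/

set_option autoImplicit false

namespace Fermat.Agent.S17

/-! ### absolute values -/

theorem absv_none_apply (a : Kb) : absv none a = ‖embC a‖ := rfl

theorem absv_some_apply (p : Nat.Primes) (a : Kb) :
    absv (some p) a = @norm (@PadicAlgCl p.1 ⟨p.2⟩) (@PadicAlgCl.normedField p.1 ⟨p.2⟩).toNorm (embP p a) := rfl

theorem absv_none_rat (x : ℚ) : absv none (x : Kb) = |(x : ℝ)| := by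
  rw [absv_none_apply, map_ratCast, Complex.norm_ratCast]

theorem absv_some_rat (p : Nat.Primes) (x : ℚ) : absv (some p) (x : Kb) = (padicNorm p.1 x : ℝ) := by
  have : Fact p.1.Prime := ⟨p.2⟩
  rw [absv_some_apply, map_ratCast, ← Padic.eq_padicNorm, ← PadicAlgCl.norm_extends]
  congr 1

theorem absv_some_add_le (p : Nat.Primes) (x y : Kb) :
    absv (some p) (x + y) ≤ max (absv (some p) x) (absv (some p) y) := by
  have : Fact p.1.Prime := ⟨p.2⟩
  rw [absv_some_apply, absv_some_apply, absv_some_apply, map_add]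
  exact PadicAlgCl.isNonarchimedean p.1 _ _

/-- `|∑_{i ∈ s} x_i|_v ≤ kap v (#s) * r` if all `|x_i|_v ≤ r`. -/
theorem absv_sum_le (v : PlQ) {ι : Type*} (s : Finset ι) (x : ι → Kb) {r : ℝ} (hr : 0 ≤ r)
    (h : ∀ i ∈ s, absv v (x i) ≤ r) : absv v (∑ i ∈ s, x i) ≤ kap v s.card * r := by
  classical
  rcases v with _ | p
  · have h1 : absv none (∑ i ∈ s, x i) ≤ ∑ i ∈ s, absv none (x i) := (absv none).sum_le s x
    have h2 : ∑ i ∈ s, absv none (x i) ≤ s.card * r := by
      have := Finset.sum_le_card_nsmul s (fun i => absv none (x i)) r h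
      simpa using this
    have h3 : (s.card : ℝ) * r ≤ kap none s.card * r := by
      apply mul_le_mul_of_nonneg_right _ hr
      simp [kap]
    exact h1.trans (h2.trans h3)
  · have hk : kap (some p) s.card = 1 := by simp [kap]
    rw [hk, one_mul]
    induction s using Finset.induction_on with
    | empty => simpa using hr
    | insert a s ha ih =>
      rw [Finset.sum_insert ha]
      refine (absv_some_add_le p _ _).trans (max_le (h a (Finset.mem_insert_self a s)) ?_)
      exact ih (fun i hi => h i (Finset.mem_insert_of_mem hi)) (by simp [kap])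

namespace Abs

theorem isAlgClosure_Kb : IsAlgClosure ℚ Kb :=
  (inferInstance : @IsAlgClosure ℚ (AlgebraicClosure ℚ) _ _ (AlgebraicClosure.instAlgebra ℚ) _)

theorem isAlgebraic_Kb : Algebra.IsAlgebraic ℚ Kb := isAlgClosure_Kb.isAlgebraic

theorem isGalois_Kb : IsGalois ℚ Kb :=
  haveI := isAlgClosure_Kb
  IsAlgClosure.isGalois ℚ Kb

/-- An algebraic integer lies in every valuation subring. -/
theorem mem_of_isIntegral (O : ValuationSubring Kb) {x : Kb} (hx : IsIntegral ℤ x) : x ∈ O := by
  have h1 : IsIntegral O x := hx.tower_top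
  obtain ⟨a, ha⟩ := (IsIntegrallyClosed.isIntegral_iff (R := O) (K := Kb)).mp h1
  rw [← ha]
  exact a.2

/-- Every algebraic number has a nonzero integer multiple which is an algebraic integer. -/
theorem exists_int_mul_isIntegral (a : Kb) : ∃ M : ℤ, M ≠ 0 ∧ IsIntegral ℤ ((M : Kb) * a) := by
  have halg : IsAlgebraic ℚ a := isAlgebraic_Kb.isAlgebraic a
  have halg' : IsAlgebraic ℤ a := (IsFractionRing.isAlgebraic_iff ℤ ℚ Kb).2 halg
  obtain ⟨M, hM, hint⟩ := halg'.exists_integral_multiple
  refine ⟨M, hM, ?_⟩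
  rwa [zsmul_eq_mul] at hint

/-- If `p` is a nonunit of `O` and `p ∤ M`, then `M⁻¹ ∈ O`. -/
theorem inv_intCast_mem (O : ValuationSubring Kb) {p : ℕ} (hp : p.Prime) (hpO : (p : Kb) ∈ O.nonunits)
    {M : ℤ} (hM : ¬ (p : ℤ) ∣ M) : ((M : Kb))⁻¹ ∈ O := by
  have hcop : IsCoprime M (p : ℤ) :=
    ((Nat.prime_iff_prime_int.1 hp).coprime_iff_not_dvd.2 hM).symm
  obtain ⟨u, w, huw⟩ := hcop
  by_contra hcon
  -- then `M` is a nonunit
  have hMO : (M : Kb) ∈ O.nonunits := by
    rw [ValuationSubring.mem_nonunits_iff, ← not_le]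
    intro hle
    apply hcon
    rw [← ValuationSubring.valuation_le_one_iff, map_inv₀]
    have hM0 : O.valuation (M : Kb) ≠ 0 := by
      intro h0
      rw [h0] at hle
      exact absurd hle (by simp)
    exact inv_le_one_of_one_le₀ hle
  have h1 : (1 : Kb) ∈ O.nonunits := by
    have h2 : (1 : Kb) = (u : Kb) * M + (w : Kb) * p := by
      have := congrArg (fun z : ℤ => (z : Kb)) huw
      simp only [Int.cast_add, Int.cast_mul, Int.cast_one, Int.cast_natCast] at this
      exact this.symm
    rw [ValuationSubring.mem_nonunits_iff] at hMO hpO ⊢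
    rw [h2]
    have hu : O.valuation (u : Kb) ≤ 1 :=
      (ValuationSubring.valuation_le_one_iff O _).2 (intCast_mem O u)
    have hw : O.valuation (w : Kb) ≤ 1 :=
      (ValuationSubring.valuation_le_one_iff O _).2 (intCast_mem O w)
    refine lt_of_le_of_lt (O.valuation.map_add _ _) (max_lt ?_ ?_)
    · rw [map_mul]
      exact (mul_le_mul' hu le_rfl).trans_lt (by rwa [one_mul])
    · rw [map_mul]
      exact (mul_le_mul' hw le_rfl).trans_lt (by rwa [one_mul])
  rw [ValuationSubring.mem_nonunits_iff, map_one] at h1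
  exact lt_irrefl _ h1

/-- The valuation subring of `absv (some p)`. -/
noncomputable def Ov (p : Nat.Primes) : ValuationSubring Kb where
  carrier := {x | absv (some p) x ≤ 1}
  mul_mem' := by
    intro a b ha hb
    simp only [Set.mem_ofPred_eq, map_mul] at ha hb ⊢
    exact mul_le_one₀ ha ((absv (some p)).nonneg _) hb
  one_mem' := by simp
  add_mem' := by
    intro a b ha hb
    exact (absv_some_add_le p a b).trans (max_le ha hb)
  zero_mem' := by simp
  neg_mem' := by
    intro a ha
    simpa using ha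
  mem_or_inv_mem' := by
    intro x
    rcases le_total (absv (some p) x) 1 with h | h
    · exact Or.inl h
    · right
      simp only [Set.mem_ofPred_eq, map_inv₀]
      exact inv_le_one_of_one_le₀ h

theorem mem_Ov {p : Nat.Primes} {x : Kb} : x ∈ Ov p ↔ absv (some p) x ≤ 1 := Iff.rfl

theorem natCast_mem_nonunits_Ov (p : Nat.Primes) : ((p.1 : ℕ) : Kb) ∈ (Ov p).nonunits := by
  have hp : absv (some p) ((p.1 : ℕ) : Kb) = (p.1 : ℝ)⁻¹ := by
    have : Fact p.1.Prime := ⟨p.2⟩
    have := absv_some_rat p (p.1 : ℚ)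
    rw [padicNorm.padicNorm_p_of_prime] at this
    simpa using this
  have hp1 : (1 : ℝ) < p.1 := by exact_mod_cast p.2.one_lt
  rw [ValuationSubring.mem_nonunits_iff_exists_mem_maximalIdeal]
  have hmem : ((p.1 : ℕ) : Kb) ∈ Ov p := by
    rw [mem_Ov, hp]
    exact inv_le_one_of_one_le₀ hp1.le
  refine ⟨hmem, ?_⟩
  rw [IsLocalRing.mem_maximalIdeal, mem_nonunits_iff]
  intro hu
  obtain ⟨b, hb⟩ := isUnit_iff_exists_inv.1 hu
  have h1 : ((p.1 : ℕ) : Kb) * (b : Kb) = 1 := congrArg Subtype.val hb
  have h2 := congrArg (absv (some p)) h1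
  rw [map_mul, map_one, hp] at h2
  have h3 : absv (some p) (b : Kb) ≤ 1 := b.2
  have h4 : (p.1 : ℝ)⁻¹ < 1 := inv_lt_one_of_one_lt₀ hp1
  have h5 : (p.1 : ℝ)⁻¹ * absv (some p) (b : Kb) < 1 := by
    calc (p.1 : ℝ)⁻¹ * absv (some p) (b : Kb) ≤ (p.1 : ℝ)⁻¹ * 1 := by
          apply mul_le_mul_of_nonneg_left h3 (by positivity)
      _ < 1 := by rwa [mul_one]
  exact h5.ne h2

end Abs

open Abs in
/-- An algebraic number is integral at every valuation subring over `p`, for almost all `p`. -/
theorem finite_not_mem_valuationSubring (a : Kb) :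
    {p : ℕ | p.Prime ∧ ∃ O : ValuationSubring Kb, (p : Kb) ∈ O.nonunits ∧ a ∉ O}.Finite := by
  obtain ⟨M, hM, hint⟩ := exists_int_mul_isIntegral a
  refine (Finset.finite_toSet (M.natAbs.divisors)).subset ?_
  rintro p ⟨hp, O, hpO, haO⟩
  simp only [Finset.mem_coe, Nat.mem_divisors]
  refine ⟨?_, by simpa using hM⟩
  by_contra hdvd
  apply haO
  have hdvd' : ¬ (p : ℤ) ∣ M := by
    intro h
    exact hdvd (Int.natCast_dvd.1 h)
  have h1 := inv_intCast_mem O hp hpO hdvd'
  have h2 := mem_of_isIntegral O hint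
  have hM' : (M : Kb) ≠ 0 := by exact_mod_cast hM
  have : a = ((M : Kb))⁻¹ * ((M : Kb) * a) := by
    rw [← mul_assoc, inv_mul_cancel₀ hM', one_mul]
  rw [this]
  exact mul_mem h1 h2

open Abs in
/-- A nonzero algebraic number is a `v`-unit for almost all `v`. -/
theorem finite_absv_ne_one {a : Kb} (ha : a ≠ 0) : {v : PlQ | absv v a ≠ 1}.Finite := by
  have h1 := finite_not_mem_valuationSubring a
  have h2 := finite_not_mem_valuationSubring a⁻¹
  have h3 : ((fun p : Nat.Primes => p.1) ⁻¹' ({p : ℕ | p.Prime ∧ ∃ O : ValuationSubring Kb,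
      (p : Kb) ∈ O.nonunits ∧ a ∉ O} ∪ {p : ℕ | p.Prime ∧ ∃ O : ValuationSubring Kb,
      (p : Kb) ∈ O.nonunits ∧ a⁻¹ ∉ O})).Finite :=
    (h1.union h2).preimage (Subtype.val_injective.injOn)
  refine ((h3.image some).union (Set.finite_singleton none)).subset ?_
  rintro (_ | p) hv
  · right; rfl
  left
  refine ⟨p, ?_, rfl⟩
  by_contra hcon
  simp only [Set.mem_preimage, Set.mem_union, Set.mem_ofPred_eq, not_or, not_and, not_exists,
    not_not] at hcon
  have ha1 : absv (some p) a ≤ 1 := hcon.1 p.2 (Ov p) (natCast_mem_nonunits_Ov p)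
  have ha2 : absv (some p) a⁻¹ ≤ 1 := hcon.2 p.2 (Ov p) (natCast_mem_nonunits_Ov p)
  apply hv
  rw [map_inv₀] at ha2
  have hpos : 0 < absv (some p) a := (absv (some p)).pos ha
  exact le_antisymm ha1 ((inv_le_one₀ hpos).1 ha2)

namespace Abs

theorem finite_support_log_absv {a : Kb} (ha : a ≠ 0) :
    (Function.support fun v : PlQ => Real.log (absv v a)).Finite := by
  refine (finite_absv_ne_one ha).subset ?_
  intro v hv h1
  apply hv
  simp only [h1, Real.log_one]

/-- `∑_v log |a|_v`. -/
noncomputable def hsum (a : Kb) : ℝ := ∑ᶠ v : PlQ, Real.log (absv v a)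

theorem hsum_mul {a b : Kb} (ha : a ≠ 0) (hb : b ≠ 0) : hsum (a * b) = hsum a + hsum b := by
  unfold hsum
  rw [← finsum_add_distrib (finite_support_log_absv ha) (finite_support_log_absv hb)]
  congr 1
  funext v
  rw [map_mul, Real.log_mul ((absv v).ne_zero ha) ((absv v).ne_zero hb)]

theorem hsum_one : hsum 1 = 0 := by
  unfold hsum
  simp

theorem hsum_neg (a : Kb) : hsum (-a) = hsum a := by
  unfold hsum
  simp

theorem hsum_prime {p : ℕ} (hp : p.Prime) : hsum (p : Kb) = 0 := by
  classical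
  unfold hsum
  have hsub : (Function.support fun v : PlQ => Real.log (absv v (p : Kb))) ⊆
      (({none, some ⟨p, hp⟩} : Finset PlQ) : Set PlQ) := by
    intro v hv
    rcases v with _ | q
    · simp
    · by_cases hq : q = ⟨p, hp⟩
      · simp [hq]
      · exfalso
        apply hv
        have : Fact q.1.Prime := ⟨q.2⟩
        have : Fact p.Prime := ⟨hp⟩
        have h1 := absv_some_rat q (p : ℚ)
        rw [padicNorm.padicNorm_of_prime_of_ne (fun h => hq (Subtype.ext h))] at h1
        simp only [Rat.cast_natCast, Rat.cast_one] at h1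
        simp only [h1, Real.log_one]
  rw [finsum_eq_sum_of_support_subset _ hsub, Finset.sum_pair (by simp)]
  have h0 := absv_none_rat (p : ℚ)
  have : Fact p.Prime := ⟨hp⟩
  have h1 := absv_some_rat ⟨p, hp⟩ (p : ℚ)
  rw [padicNorm.padicNorm_p_of_prime] at h1
  simp only [Rat.cast_natCast, Rat.cast_inv, Nat.abs_cast] at h0 h1
  rw [h0, h1, Real.log_inv]
  ring

theorem hsum_natCast {n : ℕ} (hn : n ≠ 0) : hsum (n : Kb) = 0 := by
  induction n using induction_on_primes with
  | zero => exact absurd rfl hn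
  | one => simpa using hsum_one
  | prime_mul p a hp ih =>
    have ha : a ≠ 0 := fun h => hn (by rw [h, mul_zero])
    rw [Nat.cast_mul, hsum_mul (by exact_mod_cast hp.ne_zero) (by exact_mod_cast ha), hsum_prime hp,
      ih ha, add_zero]

theorem hsum_intCast {n : ℤ} (hn : n ≠ 0) : hsum (n : Kb) = 0 := by
  rcases Int.natAbs_eq n with h | h
  · rw [h, Int.cast_natCast]
    exact hsum_natCast (by simpa using hn)
  · rw [h, Int.cast_neg, hsum_neg, Int.cast_natCast]
    exact hsum_natCast (by simpa using hn)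

end Abs

open Abs in
/-- Product formula over `ℚ` (log form). -/
theorem sum_log_absv_rat {x : ℚ} (hx : x ≠ 0) : ∑ᶠ v : PlQ, Real.log (absv v (x : Kb)) = 0 := by
  change hsum (x : Kb) = 0
  have hx' : (x : Kb) ≠ 0 := by exact_mod_cast hx
  have hd : ((x.den : ℕ) : Kb) ≠ 0 := by exact_mod_cast x.den_ne_zero
  have h1 : (x : Kb) * ((x.den : ℕ) : Kb) = ((x.num : ℤ) : Kb) := by
    have := Rat.mul_den_eq_num x
    exact_mod_cast congrArg (fun q : ℚ => (q : Kb)) this
  have h2 := hsum_mul hx' hd
  rw [h1, hsum_intCast (Rat.num_ne_zero.2 hx), hsum_natCast x.den_ne_zero, add_zero] at h2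
  exact h2.symm

open Abs in
/-- An element of `ℚ̄` fixed by the whole Galois group is rational.
(`ℚ`-algebra structure on `Kb`: the one found by instance search, as in the Prelude.) -/
theorem exists_rat_of_fixed {a : Kb} (h : ∀ σ : Kb ≃ₐ[ℚ] Kb, σ a = a) : ∃ x : ℚ, (x : Kb) = a := by
  have := isGalois_Kb
  obtain ⟨x, hx⟩ := (InfiniteGalois.mem_range_algebraMap_iff_fixed (k := ℚ) (K := Kb) a).2 h
  exact ⟨x, by rw [← hx]; simp⟩

/-- There is a constant family dominating `max 1 |a|_v`. -/
theorem exists_CF_ge (a : Kb) : ∃ c : CF, ∀ v, absv v a ≤ c v := by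
  rcases eq_or_ne a 0 with rfl | ha
  · exact ⟨1, fun v => by simp⟩
  refine ⟨⟨fun v => max 1 (absv v a), fun v => le_max_left _ _, ?_⟩, fun v => le_max_right _ _⟩
  refine (finite_absv_ne_one ha).subset ?_
  intro v hv h1
  apply hv
  simp only [h1, max_self]

/-! ### constant families -/

theorem CF.finite_support_log (a : CF) : (Function.support fun v : PlQ => Real.log (a v)).Finite := by
  refine a.fin.subset ?_
  intro v hv h1
  apply hv
  simp only [h1, Real.log_one]

theorem CF.tot_nonneg (a : CF) : 0 ≤ a.tot :=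
  finsum_nonneg fun v => Real.log_nonneg (a.one_le v)

theorem CF.tot_mul (a b : CF) : (a * b).tot = a.tot + b.tot := by
  unfold CF.tot
  rw [← finsum_add_distrib a.finite_support_log b.finite_support_log]
  congr 1
  funext v
  rw [CF.mul_apply, Real.log_mul (a.pos v).ne' (b.pos v).ne']

/-- powers of a constant family -/
noncomputable def CF.npow (a : CF) (n : ℕ) : CF := ⟨fun v => a v ^ n, fun v => one_le_pow₀ (a.one_le v),
  a.fin.subset (by
    intro v hv
    by_contra h
    simp only [Set.mem_ofPred_eq, not_not] at h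
    exact hv (by simp [h]))⟩

/-- real powers (roots) of a constant family -/
noncomputable def CF.rpow (a : CF) (s : ℝ) (hs : 0 ≤ s) : CF :=
  ⟨fun v => a v ^ s, fun v => Real.one_le_rpow (a.one_le v) hs,
  a.fin.subset (by
    intro v hv
    by_contra h
    simp only [Set.mem_ofPred_eq, not_not] at h
    exact hv (by simp [h]))⟩

theorem finsum_le_add (c : CF) (a b : PlQ → ℝ) (ha : (Function.support a).Finite)
    (hb : (Function.support b).Finite) (h : ∀ v, a v ≤ b v + Real.log (c v)) :
    ∑ᶠ v, a v ≤ ∑ᶠ v, b v + c.tot := by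
  unfold CF.tot
  rw [← finsum_add_distrib hb c.finite_support_log]
  refine finsum_le_finsum' ha ?_ h
  exact (hb.union c.finite_support_log).subset (Function.support_add _ _)

/-- THE way constants are summed up: if `|a_v - b_v| ≤ log c_v` for all `v` and `a`, `b` have finite support then
`|∑ a_v - ∑ b_v| ≤ c.tot`. -/
theorem abs_finsum_sub_le (c : CF) (a b : PlQ → ℝ) (ha : (Function.support a).Finite)
    (hb : (Function.support b).Finite) (h : ∀ v, |a v - b v| ≤ Real.log (c v)) :
    |∑ᶠ v, a v - ∑ᶠ v, b v| ≤ c.tot := by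
  have h1 := finsum_le_add c a b ha hb (fun v => by have := (abs_le.1 (h v)).2; linarith)
  have h2 := finsum_le_add c b a hb ha (fun v => by have := (abs_le.1 (h v)).1; linarith)
  rw [abs_le]
  constructor <;> linarith

/-! ### sup norms -/

section supn

variable {ι : Type*} [Fintype ι]

/-- `|a|_v` as a nonnegative real. -/
noncomputable def Abs.nn (v : PlQ) (a : Kb) : NNReal := ⟨absv v a, (absv v).nonneg a⟩

@[simp] theorem Abs.coe_nn (v : PlQ) (a : Kb) : ((Abs.nn v a : NNReal) : ℝ) = absv v a := rfl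

theorem Abs.supn_eq (v : PlQ) (t : ι → Kb) :
    supn v t = ((Finset.univ.sup fun i => Abs.nn v (t i) : NNReal) : ℝ) := rfl

theorem absv_le_supn (v : PlQ) (t : ι → Kb) (i : ι) : absv v (t i) ≤ supn v t := by
  have := Finset.le_sup (f := fun i => Abs.nn v (t i)) (Finset.mem_univ i)
  rw [Abs.supn_eq, ← Abs.coe_nn]
  exact_mod_cast this

theorem supn_nonneg (v : PlQ) (t : ι → Kb) : 0 ≤ supn v t := NNReal.coe_nonneg _

theorem supn_le_iff (v : PlQ) (t : ι → Kb) {r : ℝ} (hr : 0 ≤ r) :
    supn v t ≤ r ↔ ∀ i, absv v (t i) ≤ r := by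
  constructor
  · intro h i
    exact (absv_le_supn v t i).trans h
  · intro h
    lift r to NNReal using hr
    rw [Abs.supn_eq, NNReal.coe_le_coe, Finset.sup_le_iff]
    intro i _
    rw [← NNReal.coe_le_coe, Abs.coe_nn]
    exact h i

theorem exists_absv_eq_supn [Nonempty ι] (v : PlQ) (t : ι → Kb) : ∃ i, absv v (t i) = supn v t := by
  obtain ⟨i, -, hi⟩ := Finset.exists_mem_eq_sup Finset.univ Finset.univ_nonempty
    (fun i => Abs.nn v (t i))
  refine ⟨i, ?_⟩
  rw [Abs.supn_eq, hi, Abs.coe_nn]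

theorem supn_eq_zero_iff (v : PlQ) (t : ι → Kb) : supn v t = 0 ↔ t = 0 := by
  constructor
  · intro h
    funext i
    have h1 := absv_le_supn v t i
    rw [h] at h1
    exact (absv v).eq_zero.1 (le_antisymm h1 ((absv v).nonneg _))
  · rintro rfl
    apply le_antisymm _ (supn_nonneg v _)
    rw [supn_le_iff v _ le_rfl]
    intro i
    simp

theorem supn_pos (v : PlQ) {t : ι → Kb} (ht : t ≠ 0) : 0 < supn v t :=
  lt_of_le_of_ne (supn_nonneg v t) (fun h => ht ((supn_eq_zero_iff v t).1 h.symm))

theorem supn_smul (v : PlQ) (a : Kb) (t : ι → Kb) : supn v (a • t) = absv v a * supn v t := by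
  have h := NNReal.mul_finset_sup (Abs.nn v a) Finset.univ (fun i => Abs.nn v (t i))
  rw [Abs.supn_eq, Abs.supn_eq, ← Abs.coe_nn, ← NNReal.coe_mul, h]
  congr 2
  funext i
  apply NNReal.eq
  simp

theorem supn_add_le (v : PlQ) (s t : ι → Kb) : supn v (s + t) ≤ kap v 2 * max (supn v s) (supn v t) := by
  have hk : 0 ≤ kap v 2 := by
    unfold kap
    split_ifs <;> positivity
  rw [supn_le_iff v _ (mul_nonneg hk (le_max_of_le_left (supn_nonneg v s)))]
  intro i
  have h := absv_sum_le v (Finset.univ : Finset (Fin 2)) ![s i, t i]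
    (r := max (supn v s) (supn v t)) (le_max_of_le_left (supn_nonneg v s)) (by
      intro j _
      fin_cases j
      · exact (absv_le_supn v s i).trans (le_max_left _ _)
      · exact (absv_le_supn v t i).trans (le_max_right _ _))
  simpa using h

/-- normalisation: every nonzero vector is a scalar multiple of a vector of sup norm 1 -/
theorem exists_smul_supn_eq_one (v : PlQ) {t : ι → Kb} (ht : t ≠ 0) :
    ∃ a : Kb, a ≠ 0 ∧ absv v a = supn v t ∧ supn v (a⁻¹ • t) = 1 := by
  have hne : Nonempty ι := by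
    by_contra hcon
    rw [not_nonempty_iff] at hcon
    exact ht (Subsingleton.elim _ _)
  obtain ⟨i, hi⟩ := exists_absv_eq_supn v t
  have hpos := supn_pos v ht
  have hti : t i ≠ 0 := by
    intro h0
    rw [h0, map_zero] at hi
    exact hpos.ne hi
  refine ⟨t i, hti, hi, ?_⟩
  rw [supn_smul, map_inv₀, hi, inv_mul_cancel₀ hpos.ne']

/-- for a fixed nonzero vector the sup norm is 1 for almost all `v` -/
theorem finite_supn_ne_one {t : ι → Kb} (ht : t ≠ 0) : {v : PlQ | supn v t ≠ 1}.Finite := by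
  classical
  have hfin : (⋃ i ∈ (Finset.univ.filter fun i => t i ≠ 0), {v : PlQ | absv v (t i) ≠ 1}).Finite := by
    apply Set.Finite.biUnion (Finset.finite_toSet _)
    intro i hi
    exact finite_absv_ne_one (by simpa using hi)
  refine hfin.subset ?_
  intro v hv
  by_contra hcon
  simp only [Finset.mem_filter, Finset.mem_univ, true_and, Set.mem_iUnion, Set.mem_ofPred_eq,
    not_exists, not_not] at hcon
  apply hv
  apply le_antisymm
  · rw [supn_le_iff v t zero_le_one]
    intro i
    by_cases hi : t i = 0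
    · simp [hi]
    · exact (hcon i hi).le
  · obtain ⟨i, hi⟩ : ∃ i, t i ≠ 0 := by
      by_contra h
      push Not at h
      exact ht (funext h)
    rw [← hcon i hi]
    exact absv_le_supn v t i

end supn

end Fermat.Agent.S17
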