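import Fermat.Agent.S17.C.ULemma

/-! # S17 / C2, C3 : minors and the constant rank lemma -/

set_option autoImplicit false
set_option linter.unusedSectionVars false

namespace Fermat.Agent.S17

namespace ConstRank

section Minors

variable {k : Type*} [Field k]

theorem exists_li_subfamily {ι V : Type*} [Finite ι] [AddCommGroup V] [Module k V] (v : ι → V)
    (r : ℕ) (hr : r ≤ Module.finrank k (Submodule.span k (Set.range v))) :
    ∃ g : Fin r → ι, LinearIndependent k (v ∘ g) := by
  obtain ⟨κ, a, ha, hsp, hli⟩ := exists_linearIndependent' k v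
  have : Finite κ := Finite.of_injective a ha
  have := Fintype.ofFinite κ
  have hcard : Fintype.card κ = Module.finrank k (Submodule.span k (Set.range v)) := by
    rw [← hsp, finrank_span_eq_card hli]
  have hle : Fintype.card (Fin r) ≤ Fintype.card κ := by
    rw [Fintype.card_fin, hcard]
    exact hr
  obtain ⟨e⟩ := Function.Embedding.nonempty_of_card_le hle
  exact ⟨a ∘ e, hli.comp e e.injective⟩

end Minors

end ConstRank

section Minors

variable {k : Type*} [Field k] {m n : Type*} [Fintype m] [Fintype n]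

/-- rank `≥ r` iff some `r × r` minor is nonzero. -/
theorem le_rank_iff_exists_minor (M : Matrix m n k) (r : ℕ) :
    r ≤ M.rank ↔ ∃ (f : Fin r → m) (g : Fin r → n), (M.submatrix f g).det ≠ 0 := by
  constructor
  · intro hr
    rw [Matrix.rank_eq_finrank_span_cols] at hr
    obtain ⟨g, hg⟩ := ConstRank.exists_li_subfamily M.col r hr
    -- the matrix of the chosen columns
    have h1 : (M.submatrix id g).transpose.rank = r := by
      have : LinearIndependent k (M.submatrix id g).transpose.row := hg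
      rw [this.rank_matrix, Fintype.card_fin]
    rw [Matrix.rank_transpose, Matrix.rank_eq_finrank_span_row] at h1
    obtain ⟨f, hf⟩ := ConstRank.exists_li_subfamily (M.submatrix id g).row r h1.ge
    refine ⟨f, g, ?_⟩
    have h2 : LinearIndependent k (M.submatrix f g).row := hf
    have h3 := Matrix.linearIndependent_rows_iff_isUnit.mp h2
    exact ((Matrix.isUnit_iff_isUnit_det _).mp h3).ne_zero
  · rintro ⟨f, g, h⟩
    have h1 := Matrix.rank_of_det_ne_zero h
    rw [Fintype.card_fin] at h1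
    rw [← h1]
    exact Matrix.rank_submatrix_le M f g

end Minors

namespace ConstRank

theorem exists_CF_ge_all {ι : Type*} (s : Finset ι) (f : ι → CF) :
    ∃ c : CF, ∀ i ∈ s, ∀ v, f i v ≤ c v := by
  classical
  induction s using Finset.induction_on with
  | empty => exact ⟨1, by simp⟩
  | insert a s ha ih =>
    obtain ⟨c, hc⟩ := ih
    refine ⟨f a * c, fun i hi v => ?_⟩
    rw [CF.mul_apply]
    rcases Finset.mem_insert.mp hi with rfl | hi
    · exact le_mul_of_one_le_right (f i |>.pos v).le (c.one_le v)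
    · exact (hc i hi v).trans (le_mul_of_one_le_left (c.pos v).le ((f a).one_le v))

end ConstRank

variable {σ β m n : Type*} [Finite σ] [Fintype β] [Fintype m] [Fintype n]

/-- all blocks of `x` are nonzero -/
def BlocksNe (blk : σ → β) (x : σ → Kb) : Prop := ∀ j, ∃ s, blk s = j ∧ x s ≠ 0

/-- every block of `x` has `v`-sup-norm exactly one -/
def BlocksNormed (blk : σ → β) (v : PlQ) (x : σ → Kb) : Prop :=
  (∀ s, absv v (x s) ≤ 1) ∧ ∀ j, ∃ s, blk s = j ∧ absv v (x s) = 1

/-- If finitely many polynomial functions `A i` have no common zero on `Z` with all blocks nonzero, then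
`max_i |A i x|_v ≥ 1/c_v` on the normalised points of `Z`.
(U_abs with `B` = the products of one coordinate per block.) -/
theorem exists_CF_le_supn {ι : Type*} [Fintype ι] (blk : σ → β) {Z : Set (σ → Kb)} (hZ : IsZClosed Z)
    (A : ι → (σ → Kb) → Kb) (hA : ∀ i, IsPoly (A i))
    (h : ∀ x ∈ Z, BlocksNe blk x → ∃ i, A i x ≠ 0) :
    ∃ c : CF, ∀ v, ∀ x ∈ Z, BlocksNormed blk v x → 1 ≤ c v * supn v (fun i => A i x) := by
  classical
  have := Fintype.ofFinite σ
  have key : ∀ s : β → σ, ∃ c : CF, (∀ j, blk (s j) = j) → ∀ v, ∀ x ∈ Z,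
      (∀ t, absv v (x t) ≤ 1) → (∀ j, absv v (x (s j)) = 1) →
        1 ≤ c v * supn v (fun i => A i x) := by
    intro s
    by_cases hs : ∀ j, blk (s j) = j
    · obtain ⟨M, c, hM, hc⟩ := U_abs hZ A hA (fun x => ∏ j, x (s j))
        (IsPoly.prod _ fun j _ => IsPoly.coord (s j)) (by
          intro x hx hAx
          by_contra hne
          obtain ⟨i, hi⟩ := h x hx (fun j => ⟨s j, hs j, fun h0 =>
            hne (Finset.prod_eq_zero (Finset.mem_univ j) h0)⟩)
          exact hi (hAx i))
      refine ⟨c, fun _ v x hx h1 h2 => ?_⟩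
      have h3 := hc v x hx h1
      rw [AbsoluteValue.map_prod, Finset.prod_congr rfl (fun j _ => h2 j)] at h3
      simpa using h3
    · exact ⟨1, fun h => absurd h hs⟩
  choose c hc using key
  obtain ⟨C, hC⟩ := ConstRank.exists_CF_ge_all Finset.univ c
  refine ⟨C, fun v x hx hn => ?_⟩
  choose s hs1 hs2 using hn.2
  exact (hc s hs1 v x hx hn.1 hs2).trans
    (mul_le_mul_of_nonneg_right (hC s (Finset.mem_univ s) v) (supn_nonneg _ _))

/-- valuation ring form of the previous statement -/
theorem exists_finset_not_all_nonunits {ι : Type*} [Fintype ι] (blk : σ → β) {Z : Set (σ → Kb)}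
    (hZ : IsZClosed Z) (A : ι → (σ → Kb) → Kb) (hA : ∀ i, IsPoly (A i))
    (h : ∀ x ∈ Z, BlocksNe blk x → ∃ i, A i x ≠ 0) :
    ∃ S : Finset ℕ, ∀ p : ℕ, p.Prime → p ∉ S → ∀ O : ValuationSubring Kb, (p : Kb) ∈ O.nonunits →
      ∀ x ∈ Z, (∀ s, x s ∈ O) → (∀ j, ∃ s, blk s = j ∧ x s ∉ O.nonunits) → ∃ i, A i x ∉ O.nonunits := by
  classical
  have := Fintype.ofFinite σ
  have key : ∀ s : β → σ, ∃ S : Finset ℕ, (∀ j, blk (s j) = j) → ∀ p : ℕ, p.Prime → p ∉ S →
      ∀ O : ValuationSubring Kb, (p : Kb) ∈ O.nonunits → ∀ x ∈ Z, (∀ s, x s ∈ O) →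
        (∀ i, A i x ∈ O.nonunits) → (∏ j, x (s j)) ∈ O.nonunits := by
    intro s
    by_cases hs : ∀ j, blk (s j) = j
    · obtain ⟨S, hS⟩ := U_val hZ A hA (fun x => ∏ j, x (s j))
        (IsPoly.prod _ fun j _ => IsPoly.coord (s j)) (by
          intro x hx hAx
          by_contra hne
          obtain ⟨i, hi⟩ := h x hx (fun j => ⟨s j, hs j, fun h0 =>
            hne (Finset.prod_eq_zero (Finset.mem_univ j) h0)⟩)
          exact hi (hAx i))
      exact ⟨S, fun _ => hS⟩
    · exact ⟨∅, fun h => absurd h hs⟩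
  choose S hS using key
  refine ⟨Finset.univ.biUnion S, fun p hp hpS O hpO x hx hxO hblk => ?_⟩
  choose s hs1 hs2 using hblk
  by_contra hcon
  have hcon' : ∀ i, A i x ∈ O.nonunits := by
    intro i
    by_contra hi
    exact hcon ⟨i, hi⟩
  have h1 := hS s hs1 p hp (fun hmem => hpS (Finset.mem_biUnion.mpr ⟨s, Finset.mem_univ s, hmem⟩))
    O hpO x hx hxO hcon'
  rw [ValuationSubring.mem_nonunits_iff, map_prod] at h1
  have h2 : ∀ j, O.valuation (x (s j)) = 1 := by
    intro j
    have h3 := (ValuationSubring.valuation_le_one_iff O _).mpr (hxO (s j))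
    have h4 := hs2 j
    rw [ValuationSubring.mem_nonunits_iff, not_lt] at h4
    exact le_antisymm h3 h4
  rw [Finset.prod_congr rfl (fun j _ => h2 j)] at h1
  simp at h1

namespace ConstRank

theorem mulVec_spread {k : Type*} [Field k] [DecidableEq n] {ρ : ℕ} (M : Matrix m n k)
    (g : Fin ρ → n) (b : Fin ρ → k) :
    M.mulVec (fun j => ∑ l, if g l = j then b l else 0) = (M.submatrix id g).mulVec b := by
  ext i
  simp only [Matrix.mulVec, dotProduct, Matrix.submatrix_apply, id]
  simp_rw [Finset.mul_sum]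
  rw [Finset.sum_comm]
  refine Finset.sum_congr rfl fun l _ => ?_
  simp [mul_ite]

theorem exists_mulVec_submatrix_eq {k : Type*} [Field k] {ρ : ℕ} (M : Matrix m n k)
    (hr : M.rank = ρ) (f : Fin ρ → m) (g : Fin ρ → n) (hdet : (M.submatrix f g).det ≠ 0)
    {t : m → k} (ht : t ∈ Set.range M.mulVec) :
    ∃ b : Fin ρ → k, (M.submatrix id g).mulVec b = t := by
  classical
  have hrC : ρ ≤ (M.submatrix id g).rank :=
    (le_rank_iff_exists_minor (M.submatrix id g) ρ).mpr ⟨f, id, by
      rw [Matrix.submatrix_submatrix]; exact hdet⟩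
  have hle : LinearMap.range (M.submatrix id g).mulVecLin ≤ LinearMap.range M.mulVecLin := by
    rintro _ ⟨b, rfl⟩
    exact ⟨_, mulVec_spread M g b⟩
  have heq := Submodule.eq_of_le_of_finrank_le hle (by
    change M.rank ≤ (M.submatrix id g).rank
    rw [hr]; exact hrC)
  obtain ⟨a, rfl⟩ := ht
  have : M.mulVec a ∈ LinearMap.range (M.submatrix id g).mulVecLin := by
    rw [heq]
    exact ⟨a, rfl⟩
  obtain ⟨b, hb⟩ := this
  exact ⟨b, hb⟩

theorem det_mul_eq_sum {k : Type*} [Field k] {ρ : ℕ} (M : Matrix m n k)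
    (f : Fin ρ → m) (g : Fin ρ → n) {t : m → k} {b : Fin ρ → k}
    (hb : (M.submatrix id g).mulVec b = t) (l : Fin ρ) :
    (M.submatrix f g).det * b l = ∑ i, (M.submatrix f g).adjugate l i * t (f i) := by
  have h1 : (M.submatrix f g).mulVec b = t ∘ f := by
    rw [← hb]
    ext i
    simp [Matrix.mulVec, dotProduct]
  have h2 : (M.submatrix f g).adjugate.mulVec ((M.submatrix f g).mulVec b) =
      (M.submatrix f g).det • b := by
    rw [Matrix.mulVec_mulVec, Matrix.adjugate_mul, Matrix.smul_mulVec, Matrix.one_mulVec]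
  rw [h1] at h2
  have h3 := congrFun h2 l
  simp only [Matrix.mulVec, dotProduct, Pi.smul_apply, smul_eq_mul, Function.comp] at h3
  exact h3.symm

end ConstRank

/-- **Constant rank lemma**: uniformly bounded solutions of `MM x * a = t`. -/
theorem const_rank_solve (blk : σ → β) {Z : Set (σ → Kb)} (hZ : IsZClosed Z)
    (MM : (σ → Kb) → Matrix m n Kb) (hMM : ∀ i j, IsPoly fun x => MM x i j) (ρ : ℕ)
    (hrank : ∀ x ∈ Z, BlocksNe blk x → (MM x).rank = ρ) :
    ∃ c : CF, ∀ v, ∀ x ∈ Z, BlocksNormed blk v x → ∀ t ∈ Set.range (MM x).mulVec,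
      ∃ a : n → Kb, (MM x).mulVec a = t ∧ supn v a ≤ c v * supn v t := by
  classical
  obtain ⟨c₁, hc₁⟩ := exists_CF_le_supn blk hZ
    (fun (p : (Fin ρ → m) × (Fin ρ → n)) x => ((MM x).submatrix p.1 p.2).det)
    (fun p => IsPoly.det fun i j => hMM (p.1 i) (p.2 j))
    (fun x hx hne => by
      obtain ⟨f, g, hfg⟩ := (le_rank_iff_exists_minor (MM x) ρ).mp (hrank x hx hne).ge
      exact ⟨(f, g), hfg⟩)
  have hadj : ∀ q : ((Fin ρ → m) × (Fin ρ → n)) × (Fin ρ × Fin ρ), ∃ c : CF, ∀ v,
      ∀ x : σ → Kb, (∀ s, absv v (x s) ≤ 1) →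
      absv v (((MM x).submatrix q.1.1 q.1.2).adjugate q.2.1 q.2.2) ≤ c v := by
    intro q
    have hp : IsPoly fun x => ((MM x).submatrix q.1.1 q.1.2).adjugate q.2.1 q.2.2 := by
      simp only [Matrix.adjugate_apply]
      refine IsPoly.det fun i j => ?_
      by_cases hi : i = q.2.2
      · subst hi
        simp only [Matrix.updateRow_self]
        exact IsPoly.const _
      · simp only [Matrix.updateRow_ne hi, Matrix.submatrix_apply]
        exact hMM _ _
    obtain ⟨p, hp⟩ := hp
    obtain ⟨c, hc⟩ := exists_CF_eval_le p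
    exact ⟨c, fun v x hx => (congrArg (absv v) (hp x)).le.trans (hc v x hx)⟩
  choose c₂' hc₂' using hadj
  obtain ⟨c₂, hc₂⟩ := ConstRank.exists_CF_ge_all Finset.univ c₂'
  refine ⟨CF.ofNat ρ * (c₁ * (CF.ofNat ρ * c₂)), fun v x hx hn t ht => ?_⟩
  have hne : BlocksNe blk x := fun j => by
    obtain ⟨s, hs, h1⟩ := hn.2 j
    exact ⟨s, hs, fun h0 => by rw [h0, map_zero] at h1; exact zero_ne_one h1⟩
  have hr := hrank x hx hne
  have h1 := hc₁ v x hx hn
  obtain ⟨f₀, g₀, -⟩ := (le_rank_iff_exists_minor (MM x) ρ).mp hr.ge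
  have : Nonempty ((Fin ρ → m) × (Fin ρ → n)) := ⟨(f₀, g₀)⟩
  obtain ⟨p, hp⟩ := exists_absv_eq_supn v
    (fun p : (Fin ρ → m) × (Fin ρ → n) => ((MM x).submatrix p.1 p.2).det)
  rw [← hp] at h1
  have hdet : ((MM x).submatrix p.1 p.2).det ≠ 0 := by
    intro h0
    rw [h0, map_zero, mul_zero] at h1
    exact absurd h1 (by norm_num)
  obtain ⟨b, hb⟩ := ConstRank.exists_mulVec_submatrix_eq (MM x) hr p.1 p.2 hdet ht
  have hst : 0 ≤ supn v t := supn_nonneg v t
  have hkap : 0 ≤ kap v ρ := ((CF.ofNat ρ).pos v).le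
  have hbound : ∀ l, absv v (b l) ≤ c₁ v * (kap v ρ * (c₂ v * supn v t)) := by
    intro l
    have h2 : absv v (((MM x).submatrix p.1 p.2).det * b l) ≤ kap v ρ * (c₂ v * supn v t) := by
      rw [ConstRank.det_mul_eq_sum (MM x) p.1 p.2 hb l]
      have h3 := absv_sum_le v (Finset.univ : Finset (Fin ρ))
        (fun i => ((MM x).submatrix p.1 p.2).adjugate l i * t (p.1 i))
        (r := c₂ v * supn v t) (mul_nonneg (c₂.pos v).le hst) (by
          intro i _
          rw [map_mul]
          exact mul_le_mul ((hc₂' (p, (l, i)) v x hn.1).trans (hc₂ _ (Finset.mem_univ _) v))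
            (absv_le_supn v t _) ((absv v).nonneg _) (c₂.pos v).le)
      rwa [Finset.card_univ, Fintype.card_fin] at h3
    rw [map_mul] at h2
    calc absv v (b l) = 1 * absv v (b l) := (one_mul _).symm
      _ ≤ (c₁ v * absv v ((MM x).submatrix p.1 p.2).det) * absv v (b l) :=
          mul_le_mul_of_nonneg_right h1 ((absv v).nonneg _)
      _ = c₁ v * (absv v ((MM x).submatrix p.1 p.2).det * absv v (b l)) := mul_assoc _ _ _
      _ ≤ c₁ v * (kap v ρ * (c₂ v * supn v t)) := mul_le_mul_of_nonneg_left h2 (c₁.pos v).le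
  have hB0 : 0 ≤ c₁ v * (kap v ρ * (c₂ v * supn v t)) :=
    mul_nonneg (c₁.pos v).le (mul_nonneg hkap (mul_nonneg (c₂.pos v).le hst))
  refine ⟨fun j => ∑ l, if p.2 l = j then b l else 0, ?_, ?_⟩
  · rw [ConstRank.mulVec_spread, hb]
  · have hval : (CF.ofNat ρ * (c₁ * (CF.ofNat ρ * c₂))) v * supn v t =
        kap v ρ * (c₁ v * (kap v ρ * (c₂ v * supn v t))) := by
      simp only [CF.mul_apply]
      change kap v ρ * (c₁ v * (kap v ρ * c₂ v)) * supn v t = _
      ring
    rw [hval, supn_le_iff v _ (mul_nonneg hkap hB0)]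
    intro j
    have h3 := absv_sum_le v (Finset.univ : Finset (Fin ρ))
      (fun l => if p.2 l = j then b l else 0) hB0 (by
        intro l _
        split_ifs
        · exact hbound l
        · rw [map_zero]; exact hB0)
    rwa [Finset.card_univ, Fintype.card_fin] at h3

end Fermat.Agent.S17
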