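import Fermat.Agent.S17.C.Abs

/-! # S17 / E2-Northcott : Northcott over `ℚ`, and for Galois stable multisets of algebraic numbers -/

set_option autoImplicit false

namespace Fermat.Agent.S17

open Polynomial

namespace NC

/-- the local height function of an algebraic number has finite support -/
theorem finite_support_log_max (a : Kb) :
    (Function.support fun v : PlQ => Real.log (max 1 (absv v a))).Finite := by
  by_cases ha : a = 0
  · have : (fun v : PlQ => Real.log (max 1 (absv v a))) = fun _ => 0 := by
      funext v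
      simp [ha]
    rw [this]
    simp
  · refine (finite_absv_ne_one ha).subset fun v hv => ?_
    intro h1
    apply hv
    simp only
    rw [h1]
    simp

theorem finite_support_log (a : Kb) :
    (Function.support fun v : PlQ => Real.log (absv v a)).Finite := by
  by_cases ha : a = 0
  · have : (fun v : PlQ => Real.log (absv v a)) = fun _ => 0 := by
      funext v
      simp [ha]
    rw [this]
    simp
  · refine (finite_absv_ne_one ha).subset fun v hv => ?_
    intro h1
    apply hv
    simp only
    rw [h1]
    simp

theorem log_max_nonneg (v : PlQ) (a : Kb) : 0 ≤ Real.log (max 1 (absv v a)) :=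
  Real.log_nonneg (le_max_left _ _)

/-- the height of `x = a / b` is at least `log max (b, |a|)` -/
theorem log_max_den_num_le (x : ℚ) :
    Real.log (max (x.den : ℝ) |(x.num : ℝ)|)
      ≤ ∑ᶠ v : PlQ, Real.log (max 1 (absv v (x : Kb))) := by
  set f : PlQ → ℝ := fun v => Real.log (max 1 (absv v (x : Kb))) with hf
  set g : PlQ → ℝ := fun v => Real.log (absv v (((x.den : ℚ)) : Kb)) with hg
  have hb0 : (x.den : ℚ) ≠ 0 := by exact_mod_cast x.den_nz
  have hb0' : (((x.den : ℚ)) : Kb) ≠ 0 := by exact_mod_cast hb0
  have hgsum : ∑ᶠ v, g v = 0 := sum_log_absv_rat hb0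
  have hfs : (Function.support f).Finite := finite_support_log_max _
  have hgs : (Function.support g).Finite := finite_support_log _
  have hmul : ∀ v, absv v (x : Kb) * absv v (((x.den : ℚ)) : Kb) = absv v (((x.num : ℚ)) : Kb) := by
    intro v
    rw [← map_mul]
    congr 1
    have := Rat.mul_den_eq_num x
    exact_mod_cast this
  have hfg : ∀ v, f v + g v
      = Real.log (max (absv v (((x.den : ℚ)) : Kb)) (absv v (((x.num : ℚ)) : Kb))) := by
    intro v
    have hpos : 0 < absv v (((x.den : ℚ)) : Kb) := (absv v).pos hb0'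
    rw [hf, hg]
    simp only
    rw [← Real.log_mul (by positivity) hpos.ne', max_mul_of_nonneg _ _ hpos.le, one_mul, hmul]
  have hnonneg : ∀ v, 0 ≤ f v + g v := by
    intro v
    rw [hfg]
    apply Real.log_nonneg
    cases v with
    | none =>
      rw [absv_none_rat]
      apply le_max_of_le_left
      have : (1 : ℝ) ≤ (x.den : ℝ) := by exact_mod_cast x.den_pos
      simpa using this
    | some p =>
      have : Fact p.1.Prime := ⟨p.2⟩
      rw [absv_some_rat, absv_some_rat]
      by_cases hp : (p.1 : ℤ) ∣ x.num
      · apply le_max_of_le_left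
        have hnd : ¬ p.1 ∣ x.den := by
          intro hd
          have hcop := x.reduced
          have h1 : p.1 ∣ x.num.natAbs := Int.natCast_dvd.mp hp
          have := Nat.dvd_gcd h1 hd
          rw [hcop] at this
          exact p.2.one_lt.ne' (Nat.dvd_one.mp this)
        have := (padicNorm.nat_eq_one_iff (p := p.1) x.den).mpr hnd
        have h2 : padicNorm p.1 ((x.den : ℚ)) = 1 := this
        rw [h2]; simp
      · apply le_max_of_le_right
        have := (padicNorm.int_eq_one_iff (p := p.1) x.num).mpr hp
        have h2 : padicNorm p.1 ((x.num : ℚ)) = 1 := this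
        rw [h2]; simp
  have h1 : ∑ᶠ v, f v = ∑ᶠ v, (f v + g v) := by
    rw [finsum_add_distrib hfs hgs, hgsum, add_zero]
  rw [h1]
  have hsupp : (Function.support fun v => f v + g v).Finite :=
    (hfs.union hgs).subset (Function.support_add f g)
  have h2 := single_le_finsum (none : PlQ) hsupp hnonneg
  refine le_trans (le_of_eq ?_) h2
  rw [hfg, absv_none_rat, absv_none_rat]
  simp

end NC

open NC

/-- Northcott over `ℚ`. -/
theorem finite_rat_height_le (B : ℝ) :
    {x : ℚ | ∑ᶠ v : PlQ, Real.log (max 1 (absv v (x : Kb))) ≤ B}.Finite := by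
  obtain ⟨M, hM⟩ := exists_nat_ge (Real.exp B)
  have hfin : ((fun p : ℤ × ℕ => (p.1 : ℚ) / p.2) ''
      (Set.Icc (-(M : ℤ)) M ×ˢ Set.Icc 0 M)).Finite :=
    ((Set.finite_Icc _ _).prod (Set.finite_Icc _ _)).image _
  refine hfin.subset fun x hx => ?_
  have h1 := (log_max_den_num_le x).trans hx
  have hpos : (0 : ℝ) < max (x.den : ℝ) |(x.num : ℝ)| :=
    lt_max_of_lt_left (by exact_mod_cast x.den_pos)
  have h2 : max (x.den : ℝ) |(x.num : ℝ)| ≤ M := ((Real.log_le_iff_le_exp hpos).mp h1).trans hM
  have h3 : (x.den : ℝ) ≤ M := (le_max_left _ _).trans h2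
  have h4 : |(x.num : ℝ)| ≤ M := (le_max_right _ _).trans h2
  refine ⟨(x.num, x.den), ⟨⟨?_, ?_⟩, ⟨Nat.zero_le _, by exact_mod_cast h3⟩⟩, Rat.num_div_den x⟩
  · have := (abs_le.mp h4).1
    exact_mod_cast this
  · have := (abs_le.mp h4).2
    exact_mod_cast this

namespace NC

theorem one_le_kap (v : PlQ) (n : ℕ) : 1 ≤ kap v n := (CF.ofNat n).one_le v

theorem absv_add_le_kap (v : PlQ) (x y : Kb) :
    absv v (x + y) ≤ kap v 2 * max (absv v x) (absv v y) := by
  cases v with
  | none =>
    have h1 : kap none 2 = 2 := by simp [kap]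
    rw [h1]
    have h2 := (absv none).add_le x y
    have h3 := le_max_left (absv none x) (absv none y)
    have h4 := le_max_right (absv none x) (absv none y)
    linarith
  | some p =>
    have h1 : kap (some p) 2 = 1 := by simp [kap]
    rw [h1, one_mul]
    exact absv_some_add_le p x y

/-- the polynomial `∏_{b ∈ s} (X - b)` -/
noncomputable def pol (s : Multiset Kb) : Kb[X] := (s.map fun b => X - C b).prod

/-- the local bound `∏_{b ∈ s} max (1, |b|_v)` -/
noncomputable def bd (v : PlQ) (s : Multiset Kb) : ℝ := (s.map fun b => max 1 (absv v b)).prod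

theorem one_le_bd (v : PlQ) (s : Multiset Kb) : 1 ≤ bd v s := by
  induction s using Multiset.induction_on with
  | empty => simp [bd]
  | cons b s ih =>
    have : bd v (b ::ₘ s) = max 1 (absv v b) * bd v s := by simp [bd]
    rw [this]
    exact one_le_mul_of_one_le_of_one_le (le_max_left _ _) ih

theorem log_bd (v : PlQ) (s : Multiset Kb) :
    Real.log (bd v s) = (s.map fun b => Real.log (max 1 (absv v b))).sum := by
  induction s using Multiset.induction_on with
  | empty => simp [bd]
  | cons b s ih =>
    have : bd v (b ::ₘ s) = max 1 (absv v b) * bd v s := by simp [bd]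
    have h1 : (0 : ℝ) < max 1 (absv v b) := lt_of_lt_of_le one_pos (le_max_left _ _)
    have h2 : (0 : ℝ) < bd v s := lt_of_lt_of_le one_pos (one_le_bd v s)
    rw [this, Real.log_mul h1.ne' h2.ne', ih]
    simp

/-- coefficients of `∏ (X - b)` are bounded by `kap_v(2)^#s ∏ max(1,|b|_v)` -/
theorem absv_coeff_pol_le (v : PlQ) (s : Multiset Kb) (k : ℕ) :
    absv v ((pol s).coeff k) ≤ kap v 2 ^ (Multiset.card s) * bd v s := by
  induction s using Multiset.induction_on generalizing k with
  | empty =>
    simp only [pol, bd, Multiset.map_zero, Multiset.prod_zero, Multiset.card_zero, pow_zero,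
      mul_one, coeff_one]
    split_ifs <;> simp
  | cons b s ih =>
    have hp : pol (b ::ₘ s) = (X - C b) * pol s := by simp [pol]
    have hb : bd v (b ::ₘ s) = max 1 (absv v b) * bd v s := by simp [bd]
    have hk1 := one_le_kap v 2
    have hM : 0 ≤ kap v 2 ^ (Multiset.card s) * bd v s :=
      mul_nonneg (pow_nonneg (by linarith) _) (by linarith [one_le_bd v s])
    have hm1 : (1 : ℝ) ≤ max 1 (absv v b) := le_max_left _ _
    have hmb : absv v b ≤ max 1 (absv v b) := le_max_right _ _
    rw [hp, hb, Multiset.card_cons, pow_succ]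
    have hgoal : ∀ y z : Kb, absv v y ≤ kap v 2 ^ (Multiset.card s) * bd v s →
        absv v z ≤ kap v 2 ^ (Multiset.card s) * bd v s →
        absv v (y - b * z) ≤ kap v 2 ^ (Multiset.card s) * kap v 2 * (max 1 (absv v b) * bd v s) := by
      intro y z hy hz
      have h1 := absv_add_le_kap v y (-(b * z))
      rw [← sub_eq_add_neg, (absv v).map_neg, map_mul] at h1
      have h2 : max (absv v y) (absv v b * absv v z)
          ≤ max 1 (absv v b) * (kap v 2 ^ (Multiset.card s) * bd v s) := by
        apply max_le
        · calc absv v y ≤ 1 * (kap v 2 ^ (Multiset.card s) * bd v s) := by rw [one_mul]; exact hy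
            _ ≤ _ := mul_le_mul_of_nonneg_right hm1 hM
        · exact mul_le_mul hmb hz ((absv v).nonneg _) (by linarith)
      calc absv v (y - b * z) ≤ kap v 2 * max (absv v y) (absv v b * absv v z) := h1
        _ ≤ kap v 2 * (max 1 (absv v b) * (kap v 2 ^ (Multiset.card s) * bd v s)) :=
          mul_le_mul_of_nonneg_left h2 (by linarith)
        _ = _ := by ring
    cases k with
    | zero =>
      have : ((X - C b) * pol s).coeff 0 = 0 - b * (pol s).coeff 0 := by
        simp [sub_mul]
      rw [this]
      exact hgoal 0 _ (by simpa using hM) (ih 0)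
    | succ k =>
      have : ((X - C b) * pol s).coeff (k + 1) = (pol s).coeff k - b * (pol s).coeff (k + 1) := by
        simp [sub_mul, coeff_X_mul]
      rw [this]
      exact hgoal _ _ (ih k) (ih (k + 1))

theorem pol_monic (s : Multiset Kb) : (pol s).Monic :=
  monic_multiset_prod_of_monic _ _ fun b _ => monic_X_sub_C b

theorem natDegree_pol (s : Multiset Kb) : (pol s).natDegree = Multiset.card s := by
  simp [pol, natDegree_multiset_prod_X_sub_C_eq_card]

theorem roots_pol (s : Multiset Kb) : (pol s).roots = s := roots_multiset_prod_X_sub_C s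

theorem map_pol (σ : Kb ≃ₐ[ℚ] Kb) (s : Multiset Kb) :
    (pol s).map (σ : Kb →+* Kb) = pol (s.map σ) := by
  simp only [pol, Polynomial.map_multiset_prod, Multiset.map_map]
  congr 1
  apply Multiset.map_congr rfl
  intro b _
  simp

theorem finite_support_sum (s : Multiset Kb) :
    (Function.support fun v : PlQ => (s.map fun b => Real.log (max 1 (absv v b))).sum).Finite := by
  induction s using Multiset.induction_on with
  | empty => simp
  | cons b s ih =>
    have : (fun v : PlQ => ((b ::ₘ s).map fun b => Real.log (max 1 (absv v b))).sum)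
        = fun v => Real.log (max 1 (absv v b)) + (s.map fun b => Real.log (max 1 (absv v b))).sum := by
      funext v; simp
    rw [this]
    exact ((finite_support_log_max b).union ih).subset (Function.support_add _ _)

end NC

/-- Northcott for algebraic numbers via Galois stable multisets: the set of `a ∈ ℚ̄` which occur in a Galois-stable multiset
`s` of cardinality `≤ d` with `∑_v ∑_{b ∈ s} log max(1,|b|_v) ≤ B` is finite.
(`∏_{b ∈ s} (T - b) ∈ ℚ[T]`, coefficients of bounded height.) -/
theorem finite_of_stable_multiset (d : ℕ) (B : ℝ) :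
    {a : Kb | ∃ s : Multiset Kb, a ∈ s ∧ Multiset.card s ≤ d ∧ (∀ σ : Kb ≃ₐ[ℚ] Kb, s.map σ = s) ∧
      ∑ᶠ v : PlQ, (s.map fun b => Real.log (max 1 (absv v b))).sum ≤ B}.Finite := by
  classical
  let c : CF := (CF.ofNat 2).npow d
  have hU := finite_rat_height_le (B + c.tot)
  refine (Polynomial.bUnion_roots_finite (algebraMap ℚ Kb) d hU).subset ?_
  rintro a ⟨s, has, hcard, hstab, hB⟩
  -- the coefficients are rational
  have hlift : pol s ∈ Polynomial.lifts (algebraMap ℚ Kb) := by
    rw [Polynomial.lifts_iff_coeff_lifts]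
    intro k
    obtain ⟨x, hx⟩ := exists_rat_of_fixed (a := (pol s).coeff k) (fun σ => by
      have h1 := map_pol σ s
      rw [hstab σ] at h1
      have h2 := congrArg (fun P => P.coeff k) h1
      simpa using h2)
    exact ⟨x, by rw [← hx]; exact eq_ratCast _ x⟩
  obtain ⟨f, hf, hdeg, -⟩ := Polynomial.lifts_and_natDegree_eq_and_monic hlift (pol_monic s)
  simp only [Set.mem_iUnion]
  refine ⟨f, ⟨by rw [hdeg, natDegree_pol]; exact hcard, fun i => ?_⟩, ?_⟩
  · -- height of the coefficients
    have hci : ((f.coeff i : ℚ) : Kb) = (pol s).coeff i := by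
      rw [← hf, coeff_map]; exact (eq_ratCast _ _).symm
    change ∑ᶠ v : PlQ, Real.log (max 1 (absv v ((f.coeff i : ℚ) : Kb))) ≤ B + c.tot
    rw [hci]
    refine le_trans (finsum_le_add c _ _ (finite_support_log_max _) (finite_support_sum s) ?_)
      (by linarith)
    intro v
    have h1 := absv_coeff_pol_le v s i
    have hk1 := one_le_kap v 2
    have hbd := one_le_bd v s
    have hcv : c v = kap v 2 ^ d := rfl
    have h2 : kap v 2 ^ (Multiset.card s) ≤ kap v 2 ^ d := pow_le_pow_right₀ hk1 hcard
    have h3 : max 1 (absv v ((pol s).coeff i)) ≤ bd v s * c v := by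
      rw [hcv]
      apply max_le
      · exact one_le_mul_of_one_le_of_one_le hbd (one_le_pow₀ hk1)
      · calc _ ≤ kap v 2 ^ (Multiset.card s) * bd v s := h1
          _ ≤ kap v 2 ^ d * bd v s := mul_le_mul_of_nonneg_right h2 (by linarith)
          _ = _ := mul_comm _ _
    have h4 : (0 : ℝ) < max 1 (absv v ((pol s).coeff i)) :=
      lt_of_lt_of_le one_pos (le_max_left _ _)
    have h5 := Real.log_le_log h4 h3
    rw [Real.log_mul (by linarith) (c.pos v).ne', log_bd] at h5
    exact h5
  · rw [hf, roots_pol]
    simpa using has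

end Fermat.Agent.S17
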