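import Fermat.Agent.S17.C.AbsDefs

/-! # S17 / C : API for polynomial functions `IsPoly` and Zariski closed sets `IsZClosed` -/

set_option autoImplicit false

namespace Fermat.Agent.S17

variable {σ τ : Type*}

theorem IsPoly.const (a : Kb) : IsPoly fun _ : σ → Kb => a := ⟨MvPolynomial.C a, fun _ => by simp⟩

theorem IsPoly.coord (s : σ) : IsPoly fun x : σ → Kb => x s := ⟨MvPolynomial.X s, fun _ => by simp⟩

theorem IsPoly.add {f g : (σ → Kb) → Kb} (hf : IsPoly f) (hg : IsPoly g) :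
    IsPoly fun x => f x + g x := by
  obtain ⟨p, hp⟩ := hf; obtain ⟨q, hq⟩ := hg
  exact ⟨p + q, fun x => by simp [hp, hq]⟩

theorem IsPoly.mul {f g : (σ → Kb) → Kb} (hf : IsPoly f) (hg : IsPoly g) :
    IsPoly fun x => f x * g x := by
  obtain ⟨p, hp⟩ := hf; obtain ⟨q, hq⟩ := hg
  exact ⟨p * q, fun x => by simp [hp, hq]⟩

theorem IsPoly.neg {f : (σ → Kb) → Kb} (hf : IsPoly f) : IsPoly fun x => - f x := by
  obtain ⟨p, hp⟩ := hf
  exact ⟨-p, fun x => by simp [hp]⟩

theorem IsPoly.sub {f g : (σ → Kb) → Kb} (hf : IsPoly f) (hg : IsPoly g) :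
    IsPoly fun x => f x - g x := by
  obtain ⟨p, hp⟩ := hf; obtain ⟨q, hq⟩ := hg
  exact ⟨p - q, fun x => by simp [hp, hq]⟩

theorem IsPoly.pow {f : (σ → Kb) → Kb} (hf : IsPoly f) (n : ℕ) : IsPoly fun x => f x ^ n := by
  obtain ⟨p, hp⟩ := hf
  exact ⟨p ^ n, fun x => by simp [hp]⟩

theorem IsPoly.sum {ι : Type*} (s : Finset ι) {f : ι → (σ → Kb) → Kb} (hf : ∀ i ∈ s, IsPoly (f i)) :
    IsPoly fun x => ∑ i ∈ s, f i x := by
  classical
  induction s using Finset.induction_on with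
  | empty => simpa using IsPoly.const (σ := σ) 0
  | insert a s ha ih =>
    simp only [Finset.sum_insert ha]
    exact (hf a (Finset.mem_insert_self _ _)).add
      (ih fun i hi => hf i (Finset.mem_insert_of_mem hi))

theorem IsPoly.prod {ι : Type*} (s : Finset ι) {f : ι → (σ → Kb) → Kb} (hf : ∀ i ∈ s, IsPoly (f i)) :
    IsPoly fun x => ∏ i ∈ s, f i x := by
  classical
  induction s using Finset.induction_on with
  | empty => simpa using IsPoly.const (σ := σ) 1
  | insert a s ha ih =>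
    simp only [Finset.prod_insert ha]
    exact (hf a (Finset.mem_insert_self _ _)).mul
      (ih fun i hi => hf i (Finset.mem_insert_of_mem hi))

theorem IsPoly.det {n : Type*} [Fintype n] [DecidableEq n] {M : (σ → Kb) → Matrix n n Kb}
    (hM : ∀ i j, IsPoly fun x => M x i j) : IsPoly fun x => (M x).det := by
  simp only [Matrix.det_apply, Units.smul_def, zsmul_eq_mul]
  refine IsPoly.sum _ fun τ _ => ?_
  exact (IsPoly.const _).mul (IsPoly.prod _ fun i _ => hM _ _)

/-- composition with a polynomial map -/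
theorem IsPoly.comp {f : (τ → Kb) → Kb} (hf : IsPoly f) {g : (σ → Kb) → τ → Kb}
    (hg : ∀ t, IsPoly fun x => g x t) : IsPoly fun x => f (g x) := by
  obtain ⟨p, hp⟩ := hf
  choose q hq using hg
  refine ⟨MvPolynomial.bind₁ q p, fun x => ?_⟩
  show f (g x) = _
  rw [hp, ← MvPolynomial.aeval_eq_eval, ← MvPolynomial.aeval_eq_eval, MvPolynomial.aeval_bind₁]
  congr 2
  funext t
  rw [MvPolynomial.aeval_eq_eval]
  exact hq t x

theorem IsZClosed.univ : IsZClosed (Set.univ : Set (σ → Kb)) := ⟨∅, by simp, by simp⟩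

theorem IsZClosed.setOf_eq_zero {f : (σ → Kb) → Kb} (hf : IsPoly f) : IsZClosed {x | f x = 0} :=
  ⟨{f}, by simpa using hf, by simp⟩

theorem IsZClosed.inter {Z W : Set (σ → Kb)} (hZ : IsZClosed Z) (hW : IsZClosed W) :
    IsZClosed (Z ∩ W) := by
  obtain ⟨S, hS, rfl⟩ := hZ
  obtain ⟨T, hT, rfl⟩ := hW
  refine ⟨S ∪ T, ?_, ?_⟩
  · rintro f (hf | hf)
    · exact hS f hf
    · exact hT f hf
  · ext x
    simp only [Set.mem_inter_iff, Set.mem_ofPred_eq, Set.mem_union]
    constructor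
    · rintro ⟨h1, h2⟩ f (hf | hf)
      · exact h1 f hf
      · exact h2 f hf
    · intro h
      exact ⟨fun f hf => h f (Or.inl hf), fun f hf => h f (Or.inr hf)⟩

theorem IsZClosed.iInter {ι : Sort*} {Z : ι → Set (σ → Kb)} (hZ : ∀ i, IsZClosed (Z i)) :
    IsZClosed (⋂ i, Z i) := by
  choose S hS hZS using hZ
  refine ⟨⋃ i, S i, ?_, ?_⟩
  · intro f hf
    obtain ⟨i, hi⟩ := Set.mem_iUnion.mp hf
    exact hS i f hi
  · ext x
    simp only [Set.mem_iInter, Set.mem_ofPred_eq, Set.mem_iUnion]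
    constructor
    · rintro h f ⟨i, hi⟩
      have := h i
      rw [hZS i] at this
      exact this f hi
    · intro h i
      rw [hZS i]
      exact fun f hf => h f ⟨i, hf⟩

theorem IsZClosed.preimage {Z : Set (τ → Kb)} (hZ : IsZClosed Z) {g : (σ → Kb) → τ → Kb}
    (hg : ∀ t, IsPoly fun x => g x t) : IsZClosed (g ⁻¹' Z) := by
  obtain ⟨S, hS, rfl⟩ := hZ
  refine ⟨(fun f x => f (g x)) '' S, ?_, ?_⟩
  · rintro _ ⟨f, hf, rfl⟩
    exact (hS f hf).comp hg
  · ext x
    simp only [Set.mem_preimage, Set.mem_ofPred_eq, Set.mem_image, forall_exists_index, and_imp,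
      forall_apply_eq_imp_iff₂]

end Fermat.Agent.S17
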