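import Mathlib

/-! # S17 / E2 : pure algebra behind the sharp Siegel lemma (Mathlib only)

* `exists_minor_ne_zero` : independent rows => a nonzero maximal minor (any field);
* `exists_good` : every rational `w × ι` matrix of rank `w` is `GL_w(ℚ)`-equivalent to an integral matrix whose
  maximal minors are coprime (descent on one fixed minor);
* `exists_small_vecMul` : Minkowski's theorem on linear forms, pigeonhole form;
* `abs_vecMul_le` : Cramer on a maximal minor.
-/

set_option autoImplicit false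

namespace Fermat.Agent.S17.SiegelAux

open Matrix

variable {ι : Type*} [Fintype ι] {w : ℕ}


/-- a matrix with linearly independent rows has a nonzero maximal minor -/
theorem exists_minor_ne_zero {k : Type*} [Field k] (X : Matrix (Fin w) ι k)
    (hX : LinearIndependent k X.row) : ∃ f : Fin w → ι, (X.submatrix id f).det ≠ 0 := by
  classical
  have hrank : Module.finrank k (Submodule.span k (Set.range X.col)) = w := by
    rw [← Matrix.rank_eq_finrank_span_cols, hX.rank_matrix, Fintype.card_fin]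
  obtain ⟨n, hn, f, hfmem, hfind⟩ : ∃ n, n = w ∧ ∃ f : Fin n → (Fin w → k),
      (∀ i, f i ∈ Set.range X.col) ∧ LinearIndependent k f := by
    obtain ⟨f, h1, -, h2⟩ := Submodule.exists_fun_fin_finrank_span_eq k (Set.range X.col)
    exact ⟨_, hrank, f, h1, h2⟩
  subst hn
  choose g hg using hfmem
  refine ⟨g, ?_⟩
  have hcol : (X.submatrix id g).col = f := by
    funext b
    rw [← hg b]
    rfl
  have hunit : IsUnit (X.submatrix id g) := by
    rw [← Matrix.linearIndependent_cols_iff_isUnit, hcol]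
    exact hfind
  exact ((Matrix.isUnit_iff_isUnit_det _).mp hunit).ne_zero

/-- pigeonhole form of Minkowski's theorem on linear forms -/
theorem exists_small_vecMul (M : Matrix (Fin w) (Fin w) ℤ) (hM : M.det ≠ 0) (R : ℕ)
    (hR : M.det.natAbs < (R + 1) ^ w) :
    ∃ c : Fin w → ℤ, c ≠ 0 ∧ ∀ b, |(c ᵥ* M) b| ≤ R := by
  classical
  let g : (Fin w → ℤ) →ₗ[ℤ] (Fin w → ℤ) := Matrix.toLin' Mᵀ
  have hg : ∀ c, g c = c ᵥ* M := fun c => by
    simp [g, Matrix.toLin'_apply, Matrix.mulVec_transpose]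
  have hinj : Function.Injective g := by
    rw [injective_iff_map_eq_zero]
    intro c hc
    rw [hg] at hc
    exact Matrix.eq_zero_of_vecMul_eq_zero hM hc
  let N : Submodule ℤ (Fin w → ℤ) := LinearMap.range g
  let e : (Fin w → ℤ) ≃ₗ[ℤ] N := LinearEquiv.ofInjective g hinj
  have hcard : Nat.card ((Fin w → ℤ) ⧸ N) = M.det.natAbs := by
    rw [← Submodule.natAbs_det_equiv N e]
    have : N.subtype ∘ₗ AddMonoidHom.toIntLinearMap ((e : (Fin w → ℤ) →+ N)) = g := by
      ext c : 1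
      rfl
    rw [this, LinearMap.det_toLin', Matrix.det_transpose]
  have hfin : Finite ((Fin w → ℤ) ⧸ N) := by
    apply Nat.finite_of_card_ne_zero
    rw [hcard]
    exact Int.natAbs_ne_zero.mpr hM
  have : Fintype ((Fin w → ℤ) ⧸ N) := Fintype.ofFinite _
  let C : Finset (Fin w → ℤ) := Fintype.piFinset fun _ => Finset.Icc (0 : ℤ) R
  have hC : C.card = (R + 1) ^ w := by
    simp [C, Fintype.card_piFinset]
  have hlt : (Finset.univ : Finset ((Fin w → ℤ) ⧸ N)).card < C.card := by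
    rw [hC, Finset.card_univ, ← Nat.card_eq_fintype_card, hcard]
    exact hR
  obtain ⟨z, hz, z', hz', hne, heq⟩ := Finset.exists_ne_map_eq_of_card_lt_of_maps_to hlt
    (f := fun z => (Submodule.Quotient.mk z : (Fin w → ℤ) ⧸ N)) (fun z _ => Finset.mem_univ _)
  rw [Submodule.Quotient.eq] at heq
  obtain ⟨c, hc⟩ := heq
  refine ⟨c, ?_, ?_⟩
  · rintro rfl
    rw [map_zero] at hc
    exact hne (sub_eq_zero.mp hc.symm)
  · intro b
    rw [← hg, hc]
    have h1 := Fintype.mem_piFinset.mp hz b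
    have h2 := Fintype.mem_piFinset.mp hz' b
    rw [Finset.mem_Icc] at h1 h2
    rw [Pi.sub_apply, abs_le]
    constructor <;> omega



omit [Fintype ι] in
/-- Cramer's rule on a maximal minor: all columns are combinations of the columns of the maximal
minor with coefficients of absolute value `≤ 1`. -/
theorem abs_vecMul_le (Y : Matrix (Fin w) ι ℤ) (f₁ : Fin w → ι)
    (hmax : ∀ f, |(Y.submatrix id f).det| ≤ |(Y.submatrix id f₁).det|)
    (hD : (Y.submatrix id f₁).det ≠ 0) (c : Fin w → ℤ) (R : ℕ)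
    (hc : ∀ b, |(c ᵥ* Y.submatrix id f₁) b| ≤ R) (i : ι) : |(c ᵥ* Y) i| ≤ w * R := by
  classical
  set M := Y.submatrix id f₁ with hM
  set col : Fin w → ℤ := fun a => Y a i with hcol
  have h1 : c ⬝ᵥ (M *ᵥ cramer M col) = c ⬝ᵥ (M.det • col) := by rw [Matrix.mulVec_cramer]
  rw [Matrix.dotProduct_mulVec, dotProduct_smul] at h1
  have h2 : c ⬝ᵥ col = (c ᵥ* Y) i := rfl
  rw [h2, smul_eq_mul] at h1
  have h3 : ∀ b, |cramer M col b| ≤ |M.det| := by
    intro b
    rw [Matrix.cramer_apply]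
    have : M.updateCol b col = Y.submatrix id (Function.update f₁ b i) := by
      ext a b'
      by_cases hb : b' = b
      · subst hb; simp [hcol]
      · simp [hM, Matrix.updateCol_ne hb, Function.update_of_ne hb]
    rw [this]
    exact hmax _
  have hDpos : 0 < |M.det| := abs_pos.mpr hD
  have h4 : |M.det| * |(c ᵥ* Y) i| ≤ |M.det| * (w * R) := by
    rw [← abs_mul, ← h1]
    calc |c ᵥ* M ⬝ᵥ cramer M col| ≤ ∑ b, |(c ᵥ* M) b * cramer M col b| :=
          Finset.abs_sum_le_sum_abs _ _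
      _ ≤ ∑ _b : Fin w, (R : ℤ) * |M.det| := by
          refine Finset.sum_le_sum fun b _ => ?_
          rw [abs_mul]
          exact mul_le_mul (hc b) (h3 b) (abs_nonneg _) (by positivity)
      _ = |M.det| * (w * R) := by
          simp; ring
  exact le_of_mul_le_mul_left h4 hDpos

theorem det_updateRow_one (b₀ : Fin w) (v : Fin w → ℚ) :
    ((1 : Matrix (Fin w) (Fin w) ℚ).updateRow b₀ v).det = v b₀ := by
  rw [← Matrix.cramer_transpose_apply, Matrix.transpose_one, Matrix.cramer_one]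
  rfl

theorem improve (Y : Matrix (Fin w) ι ℤ) (p : ℕ) [hp : Fact p.Prime]
    (h : ∀ f : Fin w → ι, (p : ℤ) ∣ (Y.submatrix id f).det) :
    ∃ (Y' : Matrix (Fin w) ι ℤ) (E : Matrix (Fin w) (Fin w) ℚ) (c : ℕ), 0 < c ∧ c < p ∧
      E.det = (c : ℚ) / p ∧ Y'.map (Int.cast : ℤ → ℚ) = E * Y.map (Int.cast : ℤ → ℚ) := by
  classical
  set Yb : Matrix (Fin w) ι (ZMod p) := Y.map (Int.cast : ℤ → ZMod p) with hYb
  have hdep : ¬ LinearIndependent (ZMod p) Yb.row := by
    intro hind
    obtain ⟨f, hf⟩ := exists_minor_ne_zero Yb hind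
    apply hf
    have : Yb.submatrix id f = (Int.castRingHom (ZMod p)).mapMatrix (Y.submatrix id f) := by
      ext a b; rfl
    rw [this, ← RingHom.map_det]
    exact (ZMod.intCast_zmod_eq_zero_iff_dvd _ p).mpr (h f)
  obtain ⟨g, hg, b₀, hb₀⟩ := Fintype.not_linearIndependent_iff.mp hdep
  have hdvd : ∀ i, (p : ℤ) ∣ ∑ b, ((g b).val : ℤ) * Y b i := by
    intro i
    rw [← ZMod.intCast_zmod_eq_zero_iff_dvd]
    have := congrFun hg i
    simp only [Finset.sum_apply, Pi.smul_apply, smul_eq_mul, Pi.zero_apply] at this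
    push_cast
    simpa [hYb] using this
  choose q hq using hdvd
  have hp0 : (p : ℚ) ≠ 0 := by exact_mod_cast hp.out.ne_zero
  refine ⟨Y.updateRow b₀ q, (1 : Matrix (Fin w) (Fin w) ℚ).updateRow b₀
    (fun b => ((g b).val : ℚ) / p), (g b₀).val, ?_, ZMod.val_lt _, ?_, ?_⟩
  · exact Nat.pos_of_ne_zero (by rwa [Ne, ZMod.val_eq_zero])
  · rw [det_updateRow_one]
  · ext a i
    rw [Matrix.mul_apply, Matrix.map_apply]
    by_cases ha : a = b₀
    · subst ha
      simp only [Matrix.updateRow_self, Matrix.map_apply]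
      have h1 : ((∑ b, ((g b).val : ℤ) * Y b i : ℤ) : ℚ) = ((p : ℤ) * q i : ℤ) := by rw [hq i]
      push_cast at h1
      rw [eq_comm]
      calc ∑ b, ((g b).val : ℚ) / p * (Y b i : ℚ) = (∑ b, ((g b).val : ℚ) * (Y b i : ℚ)) / p := by
            rw [Finset.sum_div]
            refine Finset.sum_congr rfl fun b _ => ?_
            ring
        _ = q i := by rw [h1]; field_simp
    · simp only [Matrix.updateRow_ne ha, Matrix.map_apply, Matrix.one_apply]
      simp

theorem exists_good (X : Matrix (Fin w) ι ℚ) (hX : LinearIndependent ℚ X.row) :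
    ∃ (Y : Matrix (Fin w) ι ℤ) (A : Matrix (Fin w) (Fin w) ℚ), A.det ≠ 0 ∧
      Y.map (Int.cast : ℤ → ℚ) = A * X ∧
      ∀ p : ℕ, p.Prime → ∃ f : Fin w → ι, ¬ (p : ℤ) ∣ (Y.submatrix id f).det := by
  classical
  obtain ⟨f₀, hf₀⟩ := exists_minor_ne_zero X hX
  let P : ℕ → Prop := fun n => ∃ (Y : Matrix (Fin w) ι ℤ) (A : Matrix (Fin w) (Fin w) ℚ),
    A.det ≠ 0 ∧ Y.map (Int.cast : ℤ → ℚ) = A * X ∧ (Y.submatrix id f₀).det.natAbs = n
  have hminor : ∀ (Y : Matrix (Fin w) ι ℤ) (A : Matrix (Fin w) (Fin w) ℚ),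
      Y.map (Int.cast : ℤ → ℚ) = A * X → ∀ f : Fin w → ι,
      (((Y.submatrix id f).det : ℤ) : ℚ) = A.det * (X.submatrix id f).det := by
    intro Y A h f
    rw [← Matrix.det_mul]
    have : A * X.submatrix id f = (Int.castRingHom ℚ).mapMatrix (Y.submatrix id f) := by
      have h2 : A * X.submatrix id f = (A * X).submatrix id f := by
        ext a b; simp [Matrix.mul_apply]
      rw [h2, ← h]
      ext a b; rfl
    rw [this, ← RingHom.map_det]
    rfl
  have hex : ∃ n, P n := by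
    obtain ⟨N, hN⟩ := IsLocalization.exist_integer_multiples_of_finite (nonZeroDivisors ℤ)
      (fun ai : Fin w × ι => X ai.1 ai.2)
    choose y hy using hN
    have hN0 : ((N : ℤ) : ℚ) ≠ 0 := by
      exact_mod_cast nonZeroDivisors.coe_ne_zero N
    refine ⟨_, Matrix.of (fun a i => y (a, i)), ((N : ℤ) : ℚ) • 1, ?_, ?_, rfl⟩
    · rw [Matrix.det_smul, Matrix.det_one, mul_one]
      exact pow_ne_zero _ hN0
    · ext a i
      have := hy (a, i)
      simp only [Matrix.map_apply, Matrix.of_apply, Matrix.smul_mul, Matrix.one_mul,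
        Matrix.smul_apply]
      rw [show ((y (a, i) : ℤ) : ℚ) = algebraMap ℤ ℚ (y (a, i)) from rfl, this]
      simp [Algebra.smul_def]
  obtain ⟨Y, A, hA, hYA, hn⟩ := Nat.find_spec hex
  refine ⟨Y, A, hA, hYA, ?_⟩
  intro p hp
  by_contra hcon
  push Not at hcon
  have : Fact p.Prime := ⟨hp⟩
  obtain ⟨Y', E, c, hc0, hcp, hE, hY'⟩ := improve Y p hcon
  have hp0 : (p : ℚ) ≠ 0 := by exact_mod_cast hp.ne_zero
  have hE0 : E.det ≠ 0 := by
    rw [hE]
    exact div_ne_zero (by exact_mod_cast hc0.ne') hp0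
  have hY'A : Y'.map (Int.cast : ℤ → ℚ) = (E * A) * X := by
    rw [hY', hYA, Matrix.mul_assoc]
  have hP' : P (Y'.submatrix id f₀).det.natAbs :=
    ⟨Y', E * A, by rw [Matrix.det_mul]; exact mul_ne_zero hE0 hA, hY'A, rfl⟩
  have hmin := Nat.find_min' hex hP'
  rw [← hn] at hmin
  have h1 := hminor Y A hYA f₀
  have h2 := hminor Y' (E * A) hY'A f₀
  rw [Matrix.det_mul, hE, mul_assoc, ← h1] at h2
  have h3 : (p : ℤ) * (Y'.submatrix id f₀).det = c * (Y.submatrix id f₀).det := by
    have : ((p : ℚ)) * ((Y'.submatrix id f₀).det : ℚ) = c * ((Y.submatrix id f₀).det : ℚ) := by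
      rw [h2]; field_simp
    exact_mod_cast this
  have hD0 : (Y.submatrix id f₀).det ≠ 0 := by
    intro h0
    rw [h0] at h1
    have : A.det * (X.submatrix id f₀).det ≠ 0 := mul_ne_zero hA hf₀
    exact this (by rw [← h1]; simp)
  have h4 : p * (Y'.submatrix id f₀).det.natAbs = c * (Y.submatrix id f₀).det.natAbs := by
    have := congrArg Int.natAbs h3
    simpa [Int.natAbs_mul] using this
  have hDpos : 0 < (Y.submatrix id f₀).det.natAbs := Int.natAbs_pos.mpr hD0
  have h5 : c * (Y.submatrix id f₀).det.natAbs < p * (Y.submatrix id f₀).det.natAbs :=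
    Nat.mul_lt_mul_of_pos_right hcp hDpos
  have h6 : p * (Y.submatrix id f₀).det.natAbs ≤ p * (Y'.submatrix id f₀).det.natAbs :=
    Nat.mul_le_mul_left _ hmin
  omega


theorem exists_root_bound (D : ℕ) (hD : 0 < D) (hw : 0 < w) :
    ∃ R : ℕ, 0 < R ∧ D < (R + 1) ^ w ∧ R ^ w ≤ D := by
  classical
  have hex : ∃ R : ℕ, D < (R + 1) ^ w :=
    ⟨D, lt_of_lt_of_le (Nat.lt_succ_self D) (Nat.le_self_pow hw.ne' _)⟩
  have hspec := Nat.find_spec hex
  have hpos : 0 < Nat.find hex := by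
    rcases Nat.eq_zero_or_pos (Nat.find hex) with h | h
    · rw [h] at hspec
      simp at hspec
      omega
    · exact h
  refine ⟨Nat.find hex, hpos, hspec, ?_⟩
  have hmin := Nat.find_min hex (m := Nat.find hex - 1) (by omega)
  rw [Nat.sub_add_cancel hpos] at hmin
  exact not_lt.mp hmin

omit [Fintype ι] in
/-- the integral core of the sharp Siegel lemma -/
theorem exists_small_combination (hw : 0 < w) (Y : Matrix (Fin w) ι ℤ) (f₁ : Fin w → ι)
    (hmax : ∀ f, |(Y.submatrix id f).det| ≤ |(Y.submatrix id f₁).det|)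
    (hD : (Y.submatrix id f₁).det ≠ 0) :
    ∃ (c : Fin w → ℤ) (R : ℕ), c ≠ 0 ∧ 0 < R ∧ R ^ w ≤ (Y.submatrix id f₁).det.natAbs ∧
      c ᵥ* Y ≠ 0 ∧ ∀ i, |(c ᵥ* Y) i| ≤ w * R := by
  obtain ⟨R, hR0, hR1, hR2⟩ := exists_root_bound (w := w) _ (Int.natAbs_pos.mpr hD) hw
  obtain ⟨c, hc0, hc⟩ := exists_small_vecMul _ hD R hR1
  refine ⟨c, R, hc0, hR0, hR2, ?_, abs_vecMul_le Y f₁ hmax hD c R hc⟩
  intro h0
  apply hc0
  apply Matrix.eq_zero_of_vecMul_eq_zero hD
  funext b
  have := congrFun h0 (f₁ b)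
  simpa [Matrix.vecMul, dotProduct] using this

end Fermat.Agent.S17.SiegelAux
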