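import Fermat.Agent.S17.C.Wedge
import Fermat.Agent.S17.C.SiegelAux

/-! # S17 / E2 : heights of rational vectors and subspaces, sharp Siegel lemma, Northcott over `ℚ` -/

set_option autoImplicit false

namespace Fermat.Agent.S17

variable {ι : Type*} [Fintype ι]

/-- height of a vector of algebraic numbers w.r.t. the FIXED absolute values (only meaningful for rational vectors) -/
noncomputable def hvec (t : ι → Kb) : ℝ := ∑ᶠ v : PlQ, Real.log (supn v t)

/-- height of (the span of) a family -/
noncomputable def hwedge {w : ℕ} (x : Fin w → ι → Kb) : ℝ := ∑ᶠ v : PlQ, Real.log (wedgen v x)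

namespace Siegel

theorem finite_support_log {g : PlQ → ℝ} (h : {v | g v ≠ 1}.Finite) :
    (Function.support fun v => Real.log (g v)).Finite := by
  refine h.subset fun v hv => ?_
  intro h1
  apply hv
  show Real.log (g v) = 0
  rw [h1, Real.log_one]

/-- product formula: multiplying by `|a|_v`, `a ∈ ℚ^×`, does not change the sum of the logarithms -/
theorem finsum_log_mul {a : ℚ} (ha : a ≠ 0) {g : PlQ → ℝ} (hg : {v | g v ≠ 1}.Finite)
    (hpos : ∀ v, 0 < g v) :
    ∑ᶠ v : PlQ, Real.log (absv v (a : Kb) * g v) = ∑ᶠ v : PlQ, Real.log (g v) := by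
  have haK : (a : Kb) ≠ 0 := by exact_mod_cast ha
  have h1 : ∀ v, Real.log (absv v (a : Kb) * g v) = Real.log (absv v (a : Kb)) + Real.log (g v) :=
    fun v => Real.log_mul ((absv v).ne_zero haK) (hpos v).ne'
  simp only [h1]
  rw [finsum_add_distrib (finite_support_log (finite_absv_ne_one haK)) (finite_support_log hg),
    sum_log_absv_rat ha, zero_add]

end Siegel

open Siegel

/-- independence of the rational basis (product formula for the determinant) -/
theorem hwedge_mul_rat {w : ℕ} (A : Matrix (Fin w) (Fin w) ℚ) (hA : A.det ≠ 0) (x : Fin w → ι → Kb)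
    (hx : LinearIndependent Kb x) :
    hwedge (fun a => ∑ b, (A a b : Kb) • x b) = hwedge x := by
  unfold hwedge
  have h1 : ∀ v, wedgen v (fun a => ∑ b, (A a b : Kb) • x b) =
      absv v ((A.det : ℚ) : Kb) * wedgen v x := by
    intro v
    have := wedgen_mul v ((algebraMap ℚ Kb).mapMatrix A) x
    rw [← RingHom.map_det] at this
    exact this
  simp only [h1]
  exact finsum_log_mul hA (finite_wedgen_ne_one hx) (fun v => (wedgen_pos_iff v x).mpr hx)

theorem hvec_smul_rat {a : ℚ} (ha : a ≠ 0) {t : ι → Kb} (ht : t ≠ 0) : hvec ((a : Kb) • t) = hvec t := by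
  unfold hvec
  simp only [supn_smul]
  exact finsum_log_mul ha (finite_supn_ne_one ht) (fun v => supn_pos v ht)

/-- a nonzero rational vector has height `≥ 0` -/
theorem hvec_nonneg_rat {t : ι → ℚ} (ht : t ≠ 0) : 0 ≤ hvec (fun i => (t i : Kb)) := by
  obtain ⟨i, hi⟩ := Function.ne_iff.mp ht
  have hi' : t i ≠ 0 := hi
  have hiK : (t i : Kb) ≠ 0 := by exact_mod_cast hi'
  have htK : (fun i => (t i : Kb)) ≠ 0 := fun h => hiK (congrFun h i)
  rw [← sum_log_absv_rat hi']
  unfold hvec
  refine finsum_le_finsum' (finite_support_log (finite_absv_ne_one hiK))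
    (finite_support_log (finite_supn_ne_one htK)) fun v => ?_
  exact Real.log_le_log ((absv v).pos hiK) (absv_le_supn v (fun i => (t i : Kb)) i)

namespace Siegel

/-- the family over `ℚ̄` attached to an integral matrix -/
noncomputable def toKb {w : ℕ} (Y : Matrix (Fin w) ι ℤ) : Fin w → ι → Kb :=
  fun a i => ((Y a i : ℚ) : Kb)

omit [Fintype ι] in
theorem minor_toKb {w : ℕ} (Y : Matrix (Fin w) ι ℤ) (f : Fin w → ι) :
    (Matrix.of fun a b => toKb Y a (f b)).det = ((((Y.submatrix id f).det : ℤ) : ℚ) : Kb) := by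
  have : (Matrix.of fun a b => toKb Y a (f b)) =
      ((algebraMap ℚ Kb).comp (Int.castRingHom ℚ)).mapMatrix (Y.submatrix id f) := by
    ext a b; rfl
  rw [this, ← RingHom.map_det]
  rfl

theorem absv_some_int_le_one (p : Nat.Primes) (d : ℤ) : absv (some p) (((d : ℤ) : ℚ) : Kb) ≤ 1 := by
  have : Fact p.1.Prime := ⟨p.2⟩
  rw [absv_some_rat]
  exact_mod_cast padicNorm.of_int d

theorem absv_some_int_eq_one (p : Nat.Primes) {d : ℤ} (h : ¬ (p.1 : ℤ) ∣ d) :
    absv (some p) (((d : ℤ) : ℚ) : Kb) = 1 := by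
  have : Fact p.1.Prime := ⟨p.2⟩
  rw [absv_some_rat]
  exact_mod_cast (padicNorm.int_eq_one_iff d).mpr h

theorem absv_none_int (d : ℤ) : absv none (((d : ℤ) : ℚ) : Kb) = ((|d| : ℤ) : ℝ) := by
  rw [absv_none_rat]
  push_cast
  rfl

theorem wedgen_some_eq_one {w : ℕ} (Y : Matrix (Fin w) ι ℤ) (p : Nat.Primes)
    (h : ∃ f : Fin w → ι, ¬ (p.1 : ℤ) ∣ (Y.submatrix id f).det) :
    wedgen (some p) (toKb Y) = 1 := by
  unfold wedgen
  apply le_antisymm
  · rw [supn_le_iff _ _ zero_le_one]
    intro f
    rw [minor_toKb]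
    exact absv_some_int_le_one p _
  · obtain ⟨f, hf⟩ := h
    have := absv_le_supn (some p) (fun f : Fin w → ι => (Matrix.of fun a b => toKb Y a (f b)).det) f
    rw [minor_toKb, absv_some_int_eq_one p hf] at this
    exact this

/-- the height of an integral vector is at most the logarithm of its archimedean sup norm -/
theorem hvec_int_le {t : ι → ℤ} (ht : t ≠ 0) {B : ℝ} (hB : ∀ i, ((|t i| : ℤ) : ℝ) ≤ B) :
    hvec (fun i => ((t i : ℚ) : Kb)) ≤ Real.log B := by
  classical
  obtain ⟨i, hi⟩ := Function.ne_iff.mp ht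
  have hi' : t i ≠ 0 := hi
  have hiK : ((t i : ℚ) : Kb) ≠ 0 := by exact_mod_cast hi'
  have htK : (fun i => ((t i : ℚ) : Kb)) ≠ 0 := fun h => hiK (congrFun h i)
  have hB0 : 0 ≤ B := le_trans (by positivity) (hB i)
  have h1 : ∑ᶠ v : PlQ, (if v = none then Real.log B else 0) = Real.log B := by
    rw [finsum_eq_single _ (none : PlQ) (fun v hv => by rw [if_neg hv]), if_pos rfl]
  rw [← h1]
  unfold hvec
  refine finsum_le_finsum' (finite_support_log (finite_supn_ne_one htK)) ?_ fun v => ?_
  · refine (Set.finite_singleton (none : PlQ)).subset fun v hv => ?_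
    by_contra hne
    exact hv (if_neg hne)
  · show Real.log (supn v _) ≤ if v = none then Real.log B else 0
    cases v with
    | none =>
      rw [if_pos rfl]
      refine Real.log_le_log (supn_pos _ htK) ?_
      rw [supn_le_iff _ _ hB0]
      intro j
      rw [absv_none_int]
      exact hB j
    | some p =>
      rw [if_neg (by simp)]
      apply Real.log_nonpos (supn_nonneg _ _)
      rw [supn_le_iff _ _ zero_le_one]
      intro j
      exact absv_some_int_le_one p _

end Siegel

/-- **Sharp Siegel lemma.**  Replace `x` by a `ℤ`-basis of the saturated lattice `span_ℚ x ∩ ℤ^ι` (`hwedge_mul_rat`): its wedge norm is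
`1` at all primes (independent mod `p`).  At `∞`: `I₀` a maximal minor `Δ`; all rows are combinations of the rows in `I₀` with coefficients
of absolute value `≤ 1` (Cramer), so `{c : |X c|_∞ ≤ T} ⊇ {c : |X_{I₀} c|_∞ ≤ T / w}`, of volume `(2T/w)^w / |Δ|`; Minkowski
(`MeasureTheory.exists_ne_zero_mem_lattice_of_measure_mul_two_pow_lt_measure`). -/
theorem siegel {w : ℕ} (hw : 0 < w) (x : Fin w → ι → ℚ) (hx : LinearIndependent ℚ x) :
    ∃ a : Fin w → ℚ, a ≠ 0 ∧
      hvec (fun i => ((∑ b, a b * x b i : ℚ) : Kb)) ≤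
        hwedge (fun b i => (x b i : Kb)) / w + Real.log w + 1 := by
  classical
  obtain ⟨Y, A, hA, hYA, hgood⟩ := SiegelAux.exists_good (Matrix.of x) hx
  have hYA' : ∀ a i, (Y a i : ℚ) = ∑ b, A a b * x b i := by
    intro a i
    have := congrFun (congrFun hYA a) i
    simpa [Matrix.mul_apply] using this
  -- nonemptiness of the index set of minors
  obtain ⟨f₀, hf₀⟩ := hgood 2 Nat.prime_two
  have hne : Nonempty (Fin w → ι) := ⟨f₀⟩
  have hf₀' : (Y.submatrix id f₀).det ≠ 0 := fun h => hf₀ (h ▸ dvd_zero _)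
  -- the maximal minor
  obtain ⟨f₁, hf₁⟩ := exists_absv_eq_supn none
    (fun f : Fin w → ι => (Matrix.of fun a b => toKb Y a (f b)).det)
  have hwed : wedgen none (toKb Y) = ((|(Y.submatrix id f₁).det| : ℤ) : ℝ) := by
    unfold wedgen
    rw [← hf₁, minor_toKb, absv_none_int]
  have hmax : ∀ f, |(Y.submatrix id f).det| ≤ |(Y.submatrix id f₁).det| := by
    intro f
    have := absv_le_supn none (fun f : Fin w → ι => (Matrix.of fun a b => toKb Y a (f b)).det) f
    rw [← hf₁, minor_toKb, minor_toKb, absv_none_int, absv_none_int] at this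
    exact_mod_cast this
  have hD : (Y.submatrix id f₁).det ≠ 0 := by
    intro h
    have := hmax f₀
    rw [h, abs_zero] at this
    exact hf₀' (abs_nonpos_iff.mp this)
  -- independence over `ℚ̄`
  have hYind : LinearIndependent Kb (toKb Y) := by
    rw [← wedgen_pos_iff none, hwed]
    exact_mod_cast abs_pos.mpr hD
  have hYx : toKb Y = fun a => ∑ b, (A a b : Kb) • (fun i => (x b i : Kb)) := by
    funext a i
    simp only [toKb, hYA', Finset.sum_apply, Pi.smul_apply, smul_eq_mul]
    push_cast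
    rfl
  have hxK : LinearIndependent Kb (fun b i => (x b i : Kb)) := by
    rw [← wedgen_pos_iff none]
    have h1 := wedgen_mul none ((algebraMap ℚ Kb).mapMatrix A) (fun b i => (x b i : Kb))
    have h2 : wedgen none (fun a => ∑ b, ((algebraMap ℚ Kb).mapMatrix A) a b •
        (fun i => (x b i : Kb))) = wedgen none (toKb Y) := by
      rw [hYx]; rfl
    rw [h2] at h1
    have h3 : 0 < wedgen none (toKb Y) := (wedgen_pos_iff none _).mpr hYind
    rw [h1] at h3
    exact (pos_iff_pos_of_mul_pos h3).mp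
      (lt_of_le_of_ne ((absv none).nonneg _) (fun h => by rw [← h, zero_mul] at h3; exact lt_irrefl _ h3))
  -- the height of the subspace
  have hh : hwedge (fun b i => (x b i : Kb)) = Real.log ((|(Y.submatrix id f₁).det| : ℤ) : ℝ) := by
    rw [← hwedge_mul_rat A hA _ hxK, ← hYx, ← hwed]
    unfold hwedge
    refine finsum_eq_single _ (none : PlQ) fun v hv => ?_
    cases v with
    | none => exact absurd rfl hv
    | some p => rw [wedgen_some_eq_one Y p (hgood p.1 p.2), Real.log_one]
  -- the small vector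
  obtain ⟨c, R, hc0, hR0, hRw, ht0, hbound⟩ := SiegelAux.exists_small_combination hw Y f₁ hmax hD
  have hcomb : ∀ i, (∑ b, (∑ a, (c a : ℚ) * A a b) * x b i : ℚ) =
      (((Matrix.vecMul c Y) i : ℤ) : ℚ) := by
    intro i
    have h1 : (((Matrix.vecMul c Y) i : ℤ) : ℚ) = ∑ a, (c a : ℚ) * (Y a i : ℚ) := by
      simp [Matrix.vecMul, dotProduct]
    rw [h1]
    simp only [hYA', Finset.mul_sum, Finset.sum_mul]
    rw [Finset.sum_comm]
    refine Finset.sum_congr rfl fun a _ => Finset.sum_congr rfl fun b _ => ?_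
    ring
  refine ⟨fun b => ∑ a, (c a : ℚ) * A a b, ?_, ?_⟩
  · intro h0
    apply ht0
    funext i
    have h1 := hcomb i
    have h2 : ∀ b, (∑ a, (c a : ℚ) * A a b) = 0 := fun b => congrFun h0 b
    simp only [h2, zero_mul, Finset.sum_const_zero] at h1
    exact_mod_cast h1.symm
  · simp only [hcomb]
    have hwR : (0 : ℝ) < w := by exact_mod_cast hw
    have hRR : (0 : ℝ) < R := by exact_mod_cast hR0
    have h1 : hvec (fun i => ((((Matrix.vecMul c Y) i : ℤ) : ℚ) : Kb)) ≤ Real.log ((w : ℝ) * R) := by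
      apply hvec_int_le ht0
      intro i
      exact_mod_cast hbound i
    have h2 : (w : ℝ) * Real.log R ≤ Real.log ((|(Y.submatrix id f₁).det| : ℤ) : ℝ) := by
      rw [← Real.log_pow]
      apply Real.log_le_log (by positivity)
      have : ((R ^ w : ℕ) : ℝ) ≤ (((Y.submatrix id f₁).det.natAbs : ℕ) : ℝ) := by exact_mod_cast hRw
      rw [Nat.cast_natAbs] at this
      exact_mod_cast this
    have h3 : Real.log R ≤ Real.log ((|(Y.submatrix id f₁).det| : ℤ) : ℝ) / w := by
      rw [le_div_iff₀ hwR, mul_comm]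
      exact h2
    rw [Real.log_mul hwR.ne' hRR.ne'] at h1
    rw [hh]
    linarith

end Fermat.Agent.S17
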