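import Fermat.Agent.S17.C.Abs
import Fermat.Agent.S17.C.Poly

/-! # S17 / C1 : the uniformity lemma (Nullstellensatz) -/

set_option autoImplicit false

namespace Fermat.Agent.S17

variable {σ ι : Type*} [Finite σ] [Fintype ι]

namespace ULemma

/-- A finite family of constant families is dominated by one constant family. -/
theorem exists_CF_ge_finset {κ : Type*} (s : Finset κ) (c : κ → CF) :
    ∃ C : CF, ∀ i ∈ s, ∀ v, c i v ≤ C v := by
  classical
  induction s using Finset.induction_on with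
  | empty => exact ⟨1, by simp⟩
  | insert a s _ ih =>
    obtain ⟨C, hC⟩ := ih
    refine ⟨c a * C, fun i hi v => ?_⟩
    rw [CF.mul_apply]
    rcases Finset.mem_insert.mp hi with rfl | hi
    · exact le_mul_of_one_le_right (c i |>.pos v).le (C.one_le v)
    · exact (hC i hi v).trans (le_mul_of_one_le_left (C.pos v).le ((c a).one_le v))

theorem absv_add_le (v : PlQ) (a b : Kb) {r : ℝ} (hr : 0 ≤ r) (ha : absv v a ≤ r)
    (hb : absv v b ≤ r) : absv v (a + b) ≤ kap v 2 * r := by
  have := absv_sum_le v (Finset.univ : Finset (Fin 2)) ![a, b] hr (by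
    intro i _
    fin_cases i
    · simpa using ha
    · simpa using hb)
  simpa [Fin.sum_univ_two] using this

end ULemma

open ULemma

/-- Nullstellensatz identity.  `I` := ideal generated by polynomials defining `Z` and by the `A i`;
`B` vanishes on the zero locus, so `B ∈ I.radical` (`MvPolynomial.vanishingIdeal_zeroLocus_eq_radical`). -/
theorem exists_identity {Z : Set (σ → Kb)} (hZ : IsZClosed Z) (A : ι → MvPolynomial σ Kb)
    (B : MvPolynomial σ Kb)
    (h : ∀ x ∈ Z, (∀ i, MvPolynomial.eval x (A i) = 0) → MvPolynomial.eval x B = 0) :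
    ∃ (M : ℕ) (g : ι → MvPolynomial σ Kb), 0 < M ∧
      ∀ x ∈ Z, MvPolynomial.eval x B ^ M = ∑ i, MvPolynomial.eval x (g i) * MvPolynomial.eval x (A i) := by
  obtain ⟨S, hS, rfl⟩ := hZ
  set Z : Set (σ → Kb) := {x | ∀ f ∈ S, f x = 0} with hZdef
  let I : Ideal (MvPolynomial σ Kb) :=
    MvPolynomial.vanishingIdeal Kb Z ⊔ Ideal.span (Set.range A)
  have hB : B ∈ MvPolynomial.vanishingIdeal Kb (MvPolynomial.zeroLocus Kb I) := by
    rw [MvPolynomial.mem_vanishingIdeal_iff]
    intro x hx
    rw [MvPolynomial.mem_zeroLocus_iff] at hx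
    rw [MvPolynomial.aeval_eq_eval]
    apply h x
    · intro f hf
      obtain ⟨p, hp⟩ := hS f hf
      rw [hp]
      have hpI : p ∈ I := by
        apply Ideal.mem_sup_left
        rw [MvPolynomial.mem_vanishingIdeal_iff]
        intro y hy
        rw [MvPolynomial.aeval_eq_eval]
        change MvPolynomial.eval y p = 0
        rw [← hp]
        exact hy f hf
      have := hx p hpI
      rwa [MvPolynomial.aeval_eq_eval] at this
    · intro i
      have := hx (A i) (Ideal.mem_sup_right (Ideal.subset_span ⟨i, rfl⟩))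
      rwa [MvPolynomial.aeval_eq_eval] at this
  rw [MvPolynomial.vanishingIdeal_zeroLocus_eq_radical] at hB
  obtain ⟨M, hM⟩ := hB
  have hM1 : B ^ (M + 1) ∈ I := by
    rw [pow_succ]
    exact Ideal.mul_mem_right _ _ hM
  obtain ⟨z, hz, a, ha, hza⟩ := Submodule.mem_sup.mp hM1
  obtain ⟨g, hg⟩ := (Ideal.mem_span_range_iff_exists_fun).mp ha
  refine ⟨M + 1, g, Nat.succ_pos _, fun x hx => ?_⟩
  have hz0 : MvPolynomial.eval x z = 0 := by
    have := (MvPolynomial.mem_vanishingIdeal_iff.mp hz) x hx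
    rwa [MvPolynomial.aeval_eq_eval] at this
  rw [← map_pow, ← hza, map_add, hz0, zero_add, ← hg, map_sum]
  simp

/-- A polynomial is bounded on the unit polydisc by a constant family. -/
theorem exists_CF_eval_le (g : MvPolynomial σ Kb) :
    ∃ c : CF, ∀ v, ∀ x : σ → Kb, (∀ s, absv v (x s) ≤ 1) → absv v (MvPolynomial.eval x g) ≤ c v := by
  induction g using MvPolynomial.induction_on with
  | C a =>
    obtain ⟨c, hc⟩ := exists_CF_ge a
    exact ⟨c, fun v x _ => by simpa using hc v⟩
  | add p q hp hq =>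
    obtain ⟨c, hc⟩ := hp
    obtain ⟨d, hd⟩ := hq
    refine ⟨CF.ofNat 2 * (c * d), fun v x hx => ?_⟩
    rw [map_add]
    have h1 : absv v (MvPolynomial.eval x p) ≤ (c * d) v :=
      (hc v x hx).trans (le_mul_of_one_le_right (c.pos v).le (d.one_le v))
    have h2 : absv v (MvPolynomial.eval x q) ≤ (c * d) v :=
      (hd v x hx).trans (le_mul_of_one_le_left (d.pos v).le (c.one_le v))
    exact absv_add_le v _ _ ((c * d).pos v).le h1 h2
  | mul_X p s hp =>
    obtain ⟨c, hc⟩ := hp
    refine ⟨c, fun v x hx => ?_⟩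
    rw [map_mul, MvPolynomial.eval_X, map_mul]
    calc absv v (MvPolynomial.eval x p) * absv v (x s) ≤ c v * 1 :=
          mul_le_mul (hc v x hx) (hx s) ((absv v).nonneg _) (c.pos v).le
      _ = c v := mul_one _

/-- A polynomial has integral values at integral points, at all valuation subrings over almost all `p`. -/
theorem finite_eval_not_mem (g : MvPolynomial σ Kb) :
    ∃ S : Finset ℕ, ∀ p : ℕ, p.Prime → p ∉ S → ∀ O : ValuationSubring Kb, (p : Kb) ∈ O.nonunits →
      ∀ x : σ → Kb, (∀ s, x s ∈ O) → MvPolynomial.eval x g ∈ O := by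
  classical
  induction g using MvPolynomial.induction_on with
  | C a =>
    refine ⟨(finite_not_mem_valuationSubring a).toFinset, fun p hp hpS O hO x _ => ?_⟩
    rw [MvPolynomial.eval_C]
    by_contra hcon
    exact hpS ((finite_not_mem_valuationSubring a).mem_toFinset.mpr ⟨hp, O, hO, hcon⟩)
  | add f g hf hg =>
    obtain ⟨S, hS⟩ := hf
    obtain ⟨T, hT⟩ := hg
    refine ⟨S ∪ T, fun p hp hpS O hO x hx => ?_⟩
    rw [Finset.mem_union, not_or] at hpS
    rw [map_add]
    exact O.add_mem _ _ (hS p hp hpS.1 O hO x hx) (hT p hp hpS.2 O hO x hx)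
  | mul_X f s hf =>
    obtain ⟨S, hS⟩ := hf
    refine ⟨S, fun p hp hpS O hO x hx => ?_⟩
    rw [map_mul, MvPolynomial.eval_X]
    exact O.mul_mem _ _ (hS p hp hpS O hO x hx) (hx s)

/-- **U-lemma, absolute value form.** -/
theorem U_abs {Z : Set (σ → Kb)} (hZ : IsZClosed Z) (A : ι → (σ → Kb) → Kb) (hA : ∀ i, IsPoly (A i))
    (B : (σ → Kb) → Kb) (hB : IsPoly B) (h : ∀ x ∈ Z, (∀ i, A i x = 0) → B x = 0) :
    ∃ (M : ℕ) (c : CF), 0 < M ∧ ∀ v, ∀ x ∈ Z, (∀ s, absv v (x s) ≤ 1) →
      absv v (B x) ^ M ≤ c v * supn v (fun i => A i x) := by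
  choose a ha using hA
  obtain ⟨b, hb⟩ := hB
  obtain ⟨M, g, hM, hid⟩ := exists_identity hZ a b (by
    intro x hx hxa
    rw [← hb]
    exact h x hx fun i => by rw [ha]; exact hxa i)
  choose c hc using fun i => exists_CF_eval_le (g i)
  obtain ⟨C, hC⟩ := exists_CF_ge_finset Finset.univ c
  refine ⟨M, CF.ofNat (Fintype.card ι) * C, hM, fun v x hx hx1 => ?_⟩
  rw [← map_pow, hb, hid x hx]
  have hs0 : 0 ≤ supn v (fun i => A i x) := supn_nonneg v _
  have := absv_sum_le v Finset.univ
    (fun i => MvPolynomial.eval x (g i) * MvPolynomial.eval x (a i))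
    (r := C v * supn v (fun i => A i x)) (mul_nonneg (C.pos v).le hs0) (by
      intro i _
      rw [map_mul]
      apply mul_le_mul ((hc i v x hx1).trans (hC i (Finset.mem_univ _) v)) _
        ((absv v).nonneg _) (C.pos v).le
      rw [← ha]
      exact absv_le_supn v (fun i => A i x) i)
  rw [Finset.card_univ] at this
  rw [CF.mul_apply, mul_assoc]
  exact this

/-- **U-lemma, valuation ring form.** -/
theorem U_val {Z : Set (σ → Kb)} (hZ : IsZClosed Z) (A : ι → (σ → Kb) → Kb) (hA : ∀ i, IsPoly (A i))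
    (B : (σ → Kb) → Kb) (hB : IsPoly B) (h : ∀ x ∈ Z, (∀ i, A i x = 0) → B x = 0) :
    ∃ S : Finset ℕ, ∀ p : ℕ, p.Prime → p ∉ S → ∀ O : ValuationSubring Kb, (p : Kb) ∈ O.nonunits →
      ∀ x ∈ Z, (∀ s, x s ∈ O) → (∀ i, A i x ∈ O.nonunits) → B x ∈ O.nonunits := by
  classical
  choose a ha using hA
  obtain ⟨b, hb⟩ := hB
  obtain ⟨M, g, hM, hid⟩ := exists_identity hZ a b (by
    intro x hx hxa
    rw [← hb]
    exact h x hx fun i => by rw [ha]; exact hxa i)
  choose S hS using fun i => finite_eval_not_mem (g i)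
  refine ⟨Finset.univ.biUnion S, fun p hp hpS O hO x hx hxO hAx => ?_⟩
  have hpS' : ∀ i, p ∉ S i := fun i hi =>
    hpS (Finset.mem_biUnion.mpr ⟨i, Finset.mem_univ _, hi⟩)
  rw [ValuationSubring.mem_nonunits_iff]
  have h1 : O.valuation (B x ^ M) < 1 := by
    rw [hb, hid x hx]
    apply Valuation.map_sum_lt _ one_ne_zero
    intro i _
    rw [map_mul]
    have e1 : O.valuation (MvPolynomial.eval x (g i)) ≤ 1 :=
      (O.valuation_le_one_iff _).mpr (hS i p hp (hpS' i) O hO x hxO)
    have e2 : O.valuation (MvPolynomial.eval x (a i)) < 1 := by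
      rw [← ha]
      exact (ValuationSubring.mem_nonunits_iff O).mp (hAx i)
    exact mul_lt_of_le_one_of_lt e1 e2
  rw [map_pow] at h1
  by_contra hcon
  rw [not_lt] at hcon
  exact absurd h1 (not_lt.mpr (one_le_pow₀ hcon))

end Fermat.Agent.S17
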