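import Fermat.Agent.S17.C.Abs

/-! # S17 / E1 : wedge norms (max of minors) and distances -/

set_option autoImplicit false
set_option linter.unusedSectionVars false

namespace Fermat.Agent.S17

variable {ι : Type*} [Fintype ι]

/-- wedge norm `|x_0 ∧ ... ∧ x_{w-1}|_v` := max of the absolute values of all `w × w` minors. -/
noncomputable def wedgen (v : PlQ) {w : ℕ} (x : Fin w → ι → Kb) : ℝ :=
  supn v fun f : Fin w → ι => (Matrix.of fun a b => x a (f b)).det

/-- `v`-distance (sup norm) from `y` to the subspace `W`. -/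
noncomputable def distn (v : PlQ) (y : ι → Kb) (W : Submodule Kb (ι → Kb)) : ℝ :=
  ⨅ z : W, supn v (y - (z : ι → Kb))

theorem wedgen_nonneg (v : PlQ) {w : ℕ} (x : Fin w → ι → Kb) : 0 ≤ wedgen v x := supn_nonneg _ _

namespace Wedge

/-- the minor of `x` on the columns `f`. -/
noncomputable def minor {w : ℕ} (x : Fin w → ι → Kb) (f : Fin w → ι) : Kb :=
  (Matrix.of fun a b => x a (f b)).det

theorem wedgen_def (v : PlQ) {w : ℕ} (x : Fin w → ι → Kb) : wedgen v x = supn v (minor x) := rfl

theorem exists_li_subfamily' {k : Type*} [Field k] {κ V : Type*} [Finite κ] [AddCommGroup V]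
    [Module k V] (v : κ → V)
    (r : ℕ) (hr : r ≤ Module.finrank k (Submodule.span k (Set.range v))) :
    ∃ g : Fin r → κ, LinearIndependent k (v ∘ g) := by
  obtain ⟨κ', a, ha, hsp, hli⟩ := exists_linearIndependent' k v
  have : Finite κ' := Finite.of_injective a ha
  have := Fintype.ofFinite κ'
  have hcard : Fintype.card κ' = Module.finrank k (Submodule.span k (Set.range v)) := by
    rw [← hsp, finrank_span_eq_card hli]
  have hle : Fintype.card (Fin r) ≤ Fintype.card κ' := by
    rw [Fintype.card_fin, hcard]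
    exact hr
  obtain ⟨e⟩ := Function.Embedding.nonempty_of_card_le hle
  exact ⟨a ∘ e, hli.comp e e.injective⟩

theorem exists_minor_ne_zero_iff {w : ℕ} (x : Fin w → ι → Kb) :
    (∃ f, minor x f ≠ 0) ↔ LinearIndependent Kb x := by
  constructor
  · rintro ⟨f, hf⟩
    have h1 : IsUnit (Matrix.of fun a b => x a (f b)) :=
      (Matrix.isUnit_iff_isUnit_det _).mpr (isUnit_iff_ne_zero.mpr hf)
    have h2 := Matrix.linearIndependent_rows_iff_isUnit.mpr h1
    exact LinearIndependent.of_comp (LinearMap.funLeft Kb Kb f) h2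
  · intro hx
    have h1 : (Matrix.of x).rank = w := by
      have : LinearIndependent Kb (Matrix.of x).row := hx
      rw [this.rank_matrix, Fintype.card_fin]
    rw [Matrix.rank_eq_finrank_span_cols] at h1
    obtain ⟨f, hf⟩ := exists_li_subfamily' (Matrix.of x).col w h1.ge
    refine ⟨f, ?_⟩
    have h2 : LinearIndependent Kb (Matrix.of fun a b => x a (f b)).col := hf
    have h3 := Matrix.linearIndependent_cols_iff_isUnit.mp h2
    exact ((Matrix.isUnit_iff_isUnit_det _).mp h3).ne_zero

end Wedge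

open Wedge

theorem wedgen_pos_iff (v : PlQ) {w : ℕ} (x : Fin w → ι → Kb) :
    0 < wedgen v x ↔ LinearIndependent Kb x := by
  rw [← exists_minor_ne_zero_iff, wedgen_def]
  constructor
  · intro h
    by_contra hcon
    have h0 : minor x = 0 := by
      funext f
      by_contra hf
      exact hcon ⟨f, hf⟩
    rw [h0, (supn_eq_zero_iff v _).mpr rfl] at h
    exact lt_irrefl _ h
  · rintro ⟨f, hf⟩
    exact supn_pos v (fun h0 => hf (congrFun h0 f))

/-- change of basis -/
theorem wedgen_mul (v : PlQ) {w : ℕ} (A : Matrix (Fin w) (Fin w) Kb) (x : Fin w → ι → Kb) :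
    wedgen v (fun a => ∑ b, A a b • x b) = absv v A.det * wedgen v x := by
  rw [wedgen_def, wedgen_def, ← supn_smul]
  congr 1
  funext f
  rw [Pi.smul_apply, smul_eq_mul, minor, minor, ← Matrix.det_mul]
  congr 1
  ext a c
  simp [Matrix.mul_apply]

/-- full rank case: the wedge norm of `card ι` vectors is `|det|`. -/
theorem wedgen_eq_det (v : PlQ) {w : ℕ} (e : Fin w ≃ ι) (x : Fin w → ι → Kb) :
    wedgen v x = absv v (Matrix.of fun a b => x a (e b)).det := by
  apply le_antisymm
  · rw [wedgen_def, supn_le_iff v _ ((absv v).nonneg _)]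
    intro f
    by_cases hf : Function.Injective f
    · have hbij : Function.Bijective (e.symm ∘ f) :=
        (Finite.injective_iff_bijective).mp (e.symm.injective.comp hf)
      have h1 : (Matrix.of fun a b => x a (f b)) =
          (Matrix.of fun a b => x a (e b)).submatrix id (Equiv.ofBijective _ hbij) := by
        ext a b
        simp
      rw [minor, h1, Matrix.det_permute', map_mul]
      rcases Int.units_eq_one_or (Equiv.Perm.sign (Equiv.ofBijective _ hbij)) with h | h <;>
        simp [h]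
    · rw [Function.Injective] at hf
      push Not at hf
      obtain ⟨i, j, hij, hne⟩ := hf
      rw [minor, Matrix.det_zero_of_column_eq hne (fun k => by simp [hij]), map_zero]
      exact (absv v).nonneg _
  · exact absv_le_supn v (minor x) e

theorem distn_nonneg (v : PlQ) (y : ι → Kb) (W : Submodule Kb (ι → Kb)) : 0 ≤ distn v y W :=
  Real.iInf_nonneg fun _ => supn_nonneg _ _

theorem distn_le (v : PlQ) (y : ι → Kb) (W : Submodule Kb (ι → Kb)) {z : ι → Kb} (hz : z ∈ W) :
    distn v y W ≤ supn v (y - z) :=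
  ciInf_le (f := fun z : W => supn v (y - (z : ι → Kb)))
    ⟨0, by rintro _ ⟨z, rfl⟩; exact supn_nonneg _ _⟩ ⟨z, hz⟩

namespace Wedge

theorem minor_snoc {w : ℕ} (x : Fin w → ι → Kb) (y : ι → Kb) (f : Fin (w + 1) → ι) :
    minor (Fin.snoc x y : Fin (w + 1) → ι → Kb) f =
      ∑ j : Fin (w + 1), (-1) ^ (w + j : ℕ) * y (f j) * minor x (f ∘ j.succAbove) := by
  rw [minor, Matrix.det_succ_row _ (Fin.last w)]
  refine Finset.sum_congr rfl fun j _ => ?_
  congr 1
  · simp [Fin.snoc_last]
  · rw [minor]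
    congr 1
    ext a b
    simp [Fin.succAbove_last, Fin.snoc_castSucc]

/-- the minor of `(x, y)` as a linear form in `y`. -/
noncomputable def lapL {w : ℕ} (x : Fin w → ι → Kb) (f : Fin (w + 1) → ι) : (ι → Kb) →ₗ[Kb] Kb :=
  ∑ j : Fin (w + 1), ((-1) ^ (w + j : ℕ) * minor x (f ∘ j.succAbove)) •
    (LinearMap.proj (f j) : (ι → Kb) →ₗ[Kb] Kb)

theorem lapL_apply {w : ℕ} (x : Fin w → ι → Kb) (f : Fin (w + 1) → ι) (y : ι → Kb) :
    lapL x f y = minor (Fin.snoc x y : Fin (w + 1) → ι → Kb) f := by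
  rw [minor_snoc, lapL, LinearMap.sum_apply]
  refine Finset.sum_congr rfl fun j _ => ?_
  simp only [LinearMap.smul_apply, LinearMap.proj_apply, smul_eq_mul]
  ring

theorem lapL_eq_zero_of_mem_span {w : ℕ} (x : Fin w → ι → Kb) (f : Fin (w + 1) → ι) {z : ι → Kb}
    (hz : z ∈ Submodule.span Kb (Set.range x)) : lapL x f z = 0 := by
  have hle : Submodule.span Kb (Set.range x) ≤ LinearMap.ker (lapL x f) := by
    rw [Submodule.span_le]
    rintro _ ⟨a, rfl⟩
    rw [SetLike.mem_coe, LinearMap.mem_ker, lapL_apply, minor]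
    refine Matrix.det_zero_of_row_eq (i := a.castSucc) (j := Fin.last w)
      (Fin.castSucc_lt_last a).ne ?_
    funext b
    simp [Fin.snoc_castSucc, Fin.snoc_last]
  exact hle hz

theorem minor_snoc_sub_of_mem_span {w : ℕ} (x : Fin w → ι → Kb) (y : ι → Kb)
    (f : Fin (w + 1) → ι) {z : ι → Kb} (hz : z ∈ Submodule.span Kb (Set.range x)) :
    minor (Fin.snoc x (y - z) : Fin (w + 1) → ι → Kb) f =
      minor (Fin.snoc x y : Fin (w + 1) → ι → Kb) f := by
  rw [← lapL_apply, ← lapL_apply, map_sub, lapL_eq_zero_of_mem_span x f hz, sub_zero]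

theorem absv_neg_one_pow (v : PlQ) (n : ℕ) : absv v ((-1) ^ n) = 1 := by
  rw [map_pow, AbsoluteValue.map_neg, map_one, one_pow]

end Wedge

/-- Laplace expansion along the last vector. -/
theorem wedgen_snoc_le (v : PlQ) {w : ℕ} (x : Fin w → ι → Kb) (y : ι → Kb) :
    wedgen v (Fin.snoc x y : Fin (w + 1) → ι → Kb) ≤
      kap v (w + 1) * wedgen v x * distn v y (Submodule.span Kb (Set.range x)) := by
  have hkap : 0 ≤ kap v (w + 1) := ((CF.ofNat (w + 1)).pos v).le
  rw [distn, Real.mul_iInf_of_nonneg (mul_nonneg hkap (wedgen_nonneg v x))]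
  refine le_ciInf fun z => ?_
  have hr : 0 ≤ supn v (y - (z : ι → Kb)) * wedgen v x :=
    mul_nonneg (supn_nonneg _ _) (wedgen_nonneg v x)
  rw [wedgen_def, supn_le_iff v _ (mul_nonneg (mul_nonneg hkap (wedgen_nonneg v x))
    (supn_nonneg _ _))]
  intro f
  rw [← minor_snoc_sub_of_mem_span x y f z.2, minor_snoc]
  have h1 := absv_sum_le v (Finset.univ : Finset (Fin (w + 1)))
    (fun j => (-1) ^ (w + j : ℕ) * (y - (z : ι → Kb)) (f j) * minor x (f ∘ j.succAbove)) hr (by
      intro j _
      rw [map_mul, map_mul, absv_neg_one_pow, one_mul]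
      exact mul_le_mul (absv_le_supn v _ _) (absv_le_supn v (minor x) _) ((absv v).nonneg _)
        (supn_nonneg _ _))
  rw [Finset.card_univ, Fintype.card_fin] at h1
  calc _ ≤ kap v (w + 1) * (supn v (y - (z : ι → Kb)) * wedgen v x) := h1
    _ = kap v (w + 1) * wedgen v x * supn v (y - (z : ι → Kb)) := by ring

/-- Cramer on a maximal minor `I₀` of `x`: subtract from `y` the element `z` of the span with `(y - z)|_{I₀} = 0`; then
the minor of `(x, y - z)` on `I₀ ∪ {k}` is `± Δ_{I₀} (y - z)_k`. -/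
theorem le_wedgen_snoc (v : PlQ) {w : ℕ} (x : Fin w → ι → Kb) (y : ι → Kb) :
    wedgen v x * distn v y (Submodule.span Kb (Set.range x)) ≤
      wedgen v (Fin.snoc x y : Fin (w + 1) → ι → Kb) := by
  classical
  rcases (wedgen_nonneg v x).eq_or_lt with h0 | hpos
  · rw [← h0, zero_mul]
    exact wedgen_nonneg _ _
  obtain ⟨f₁, -⟩ := (exists_minor_ne_zero_iff x).mpr ((wedgen_pos_iff v x).mp hpos)
  have : Nonempty (Fin w → ι) := ⟨f₁⟩
  obtain ⟨f₀, hf₀⟩ := exists_absv_eq_supn v (minor x)
  rw [← wedgen_def] at hf₀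
  have hdet : (Matrix.of fun a b => x a (f₀ b)).det ≠ 0 := by
    intro h
    rw [minor, h, map_zero] at hf₀
    exact hpos.ne hf₀
  obtain ⟨c, hc⟩ : ∃ c : Fin w → Kb, ∀ b, ∑ a, c a * x a (f₀ b) = y (f₀ b) := by
    refine ⟨Matrix.vecMul (y ∘ f₀) (Matrix.of fun a b => x a (f₀ b))⁻¹, fun b => ?_⟩
    have h1 : Matrix.vecMul (Matrix.vecMul (y ∘ f₀) (Matrix.of fun a b => x a (f₀ b))⁻¹)
        (Matrix.of fun a b => x a (f₀ b)) = y ∘ f₀ := by
      rw [Matrix.vecMul_vecMul, Matrix.nonsing_inv_mul _ (isUnit_iff_ne_zero.mpr hdet),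
        Matrix.vecMul_one]
    have h2 := congrFun h1 b
    simpa [Matrix.vecMul, dotProduct] using h2
  have hz : ∑ a, c a • x a ∈ Submodule.span Kb (Set.range x) :=
    Submodule.sum_mem _ fun a _ => Submodule.smul_mem _ _ (Submodule.subset_span ⟨a, rfl⟩)
  have hu : ∀ b, (y - ∑ a, c a • x a) (f₀ b) = 0 := by
    intro b
    rw [Pi.sub_apply, Finset.sum_apply, ← hc b, sub_eq_zero]
    rfl
  have hk : ∀ k, absv v ((y - ∑ a, c a • x a) k) * wedgen v x ≤
      wedgen v (Fin.snoc x y : Fin (w + 1) → ι → Kb) := by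
    intro k
    have h1 : minor (Fin.snoc x y : Fin (w + 1) → ι → Kb) (Fin.snoc f₀ k : Fin (w + 1) → ι) =
        (-1) ^ (w + w) * (y - ∑ a, c a • x a) k * minor x f₀ := by
      rw [← minor_snoc_sub_of_mem_span x y _ hz, minor_snoc, Fin.sum_univ_castSucc,
        Finset.sum_eq_zero, zero_add]
      · have h2 : (Fin.snoc f₀ k : Fin (w + 1) → ι) ∘ (Fin.last w).succAbove = f₀ := by
          funext b
          simp [Fin.succAbove_last, Fin.snoc_castSucc]
        rw [h2, Fin.snoc_last, Fin.val_last]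
      · intro j _
        rw [Fin.snoc_castSucc, hu j, mul_zero, zero_mul]
    have h3 := absv_le_supn v (minor (Fin.snoc x y : Fin (w + 1) → ι → Kb))
      (Fin.snoc f₀ k : Fin (w + 1) → ι)
    rw [h1, map_mul, map_mul, absv_neg_one_pow, one_mul, hf₀] at h3
    exact h3
  have hsup : supn v (y - ∑ a, c a • x a) ≤
      wedgen v (Fin.snoc x y : Fin (w + 1) → ι → Kb) / wedgen v x := by
    rw [supn_le_iff v _ (div_nonneg (wedgen_nonneg _ _) hpos.le)]
    intro k
    rw [le_div_iff₀ hpos]
    exact hk k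
  rw [le_div_iff₀ hpos] at hsup
  calc wedgen v x * distn v y (Submodule.span Kb (Set.range x))
      ≤ wedgen v x * supn v (y - ∑ a, c a • x a) :=
        mul_le_mul_of_nonneg_left (distn_le v y _ hz) hpos.le
    _ = supn v (y - ∑ a, c a • x a) * wedgen v x := mul_comm _ _
    _ ≤ _ := hsup

/-- norm of a linear functional on a subspace: `W = W' ⊕ K y`, `l` vanishing on `W'`:
`|l t| * dist(y, W') ≤ |l y| * |t|` for `t ∈ W`, and this is sharp up to any factor `> 1`. -/
theorem absv_functional_le (v : PlQ) (W' : Submodule Kb (ι → Kb)) (y : ι → Kb)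
    (l : (ι → Kb) →ₗ[Kb] Kb) (hl : ∀ z ∈ W', l z = 0) {t : ι → Kb}
    (ht : t ∈ W' ⊔ Submodule.span Kb {y}) :
    absv v (l t) * distn v y W' ≤ absv v (l y) * supn v t := by
  obtain ⟨z, hz, y', hy', rfl⟩ := Submodule.mem_sup.mp ht
  obtain ⟨c, rfl⟩ := Submodule.mem_span_singleton.mp hy'
  rw [map_add, hl z hz, zero_add, map_smul, smul_eq_mul, map_mul]
  by_cases hc : c = 0
  · rw [hc, map_zero, zero_mul, zero_mul]
    exact mul_nonneg ((absv v).nonneg _) (supn_nonneg _ _)
  · have h1 : z + c • y = c • (y - (-(c⁻¹ • z))) := by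
      rw [sub_neg_eq_add, smul_add, smul_smul, mul_inv_cancel₀ hc, one_smul, add_comm]
    have h2 := distn_le v y W' (W'.neg_mem (W'.smul_mem c⁻¹ hz))
    rw [h1, supn_smul]
    calc absv v c * absv v (l y) * distn v y W'
        = absv v (l y) * (absv v c * distn v y W') := by ring
      _ ≤ absv v (l y) * (absv v c * supn v (y - (-(c⁻¹ • z)))) :=
        mul_le_mul_of_nonneg_left (mul_le_mul_of_nonneg_left h2 ((absv v).nonneg _))
          ((absv v).nonneg _)

theorem exists_functional_ge (v : PlQ) (W' : Submodule Kb (ι → Kb)) (y : ι → Kb) (hy : y ∉ W')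
    (l : (ι → Kb) →ₗ[Kb] Kb) (hl : ∀ z ∈ W', l z = 0) :
    ∃ t ∈ W' ⊔ Submodule.span Kb {y}, t ≠ 0 ∧
      absv v (l y) * supn v t ≤ 2 * (absv v (l t) * distn v y W') := by
  classical
  have hymem : y ∈ W' ⊔ Submodule.span Kb {y} :=
    Submodule.mem_sup_right (Submodule.mem_span_singleton_self y)
  by_cases hly : l y = 0
  · refine ⟨y, hymem, fun h0 => hy (h0 ▸ W'.zero_mem), ?_⟩
    rw [hly, map_zero, zero_mul, zero_mul, mul_zero]
  -- `l` is bounded
  have hkap : 0 ≤ kap v (Fintype.card ι) := ((CF.ofNat _).pos v).le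
  obtain ⟨C, hC0, hC⟩ : ∃ C : ℝ, 0 ≤ C ∧ ∀ u : ι → Kb, absv v (l u) ≤ C * supn v u := by
    refine ⟨kap v (Fintype.card ι) * supn v (fun i => l (Pi.single i 1)),
      mul_nonneg hkap (supn_nonneg _ _), fun u => ?_⟩
    rw [LinearMap.pi_apply_eq_sum_univ l u]
    have h1 := absv_sum_le v (Finset.univ : Finset ι)
      (fun i => u i • l (fun j => if i = j then 1 else 0))
      (r := supn v (fun i => l (Pi.single i 1)) * supn v u)
      (mul_nonneg (supn_nonneg _ _) (supn_nonneg _ _)) (by
        intro i _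
        rw [smul_eq_mul, map_mul, mul_comm]
        refine mul_le_mul ?_ (absv_le_supn v u i) ((absv v).nonneg _) (supn_nonneg _ _)
        have h2 := absv_le_supn v (fun i => l (Pi.single i 1)) i
        have h3 : (Pi.single i 1 : ι → Kb) = fun j => if i = j then 1 else 0 := by
          funext j
          simp [Pi.single_apply, eq_comm]
        rwa [h3] at h2)
    rw [Finset.card_univ] at h1
    calc _ ≤ _ := h1
      _ = _ := by ring
  have hd : 0 < distn v y W' := by
    have h1 : absv v (l y) ≤ C * distn v y W' := by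
      rw [distn, Real.mul_iInf_of_nonneg hC0]
      refine le_ciInf fun z => ?_
      have := hC (y - (z : ι → Kb))
      rwa [map_sub, hl _ z.2, sub_zero] at this
    have h2 : 0 < absv v (l y) := (absv v).pos hly
    rcases (distn_nonneg v y W').eq_or_lt with h0 | h0
    · rw [← h0, mul_zero] at h1
      exact absurd h1 (not_le.mpr h2)
    · exact h0
  obtain ⟨z, hz⟩ := exists_lt_of_ciInf_lt (f := fun z : W' => supn v (y - (z : ι → Kb)))
    (show distn v y W' < 2 * distn v y W' by linarith)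
  refine ⟨y - z, Submodule.sub_mem _ hymem (Submodule.mem_sup_left z.2), ?_, ?_⟩
  · intro h0
    apply hy
    rw [sub_eq_zero.mp h0]
    exact z.2
  · rw [map_sub, hl _ z.2, sub_zero]
    calc absv v (l y) * supn v (y - (z : ι → Kb)) ≤ absv v (l y) * (2 * distn v y W') :=
          mul_le_mul_of_nonneg_left hz.le ((absv v).nonneg _)
      _ = 2 * (absv v (l y) * distn v y W') := by ring

/-- for a fixed linearly independent family the wedge norm is `1` for almost all `v` -/
theorem finite_wedgen_ne_one {w : ℕ} {x : Fin w → ι → Kb} (hx : LinearIndependent Kb x) :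
    {v : PlQ | wedgen v x ≠ 1}.Finite := by
  obtain ⟨f, hf⟩ := (exists_minor_ne_zero_iff x).mpr hx
  exact finite_supn_ne_one (t := minor x) (fun h0 => hf (congrFun h0 f))

end Fermat.Agent.S17
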